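import Mathlib
import Fermat.Agent.LT.T7.H736.ExpUp
import Fermat.Agent.LT.T7.H561.BlocksSpec

/-!
# Row LT, tower T7, node T7.L2.2.E.2 `UpBasisC` (deputy sub-architect helper865): THE CUT
# = A BRIDGE to the leaves of helper561, with a PROVED top

OFF-MAIN.  PROVED top, no new definition, no new leaf Prop.  Nothing assumed, no hole.
Against `LT/T7/H736/ExpUp.lean` v0.1 (helper736@c1525b2e3, sha256 1fa5d64c), `SpecUp.lean`
(faf14765), `LT/T7/H561/SpecUpSpec.lean` (helper561@62b060f4f, sha256 383e6674),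
`BlocksSpec.lean` (5ceeaa4d), `T7/Level2.lean` (15516646); byte-identical copies.

    upBasisC_of865 : SU736.StfUpC K K' → H561.BlocksC561 K K' → H561.ChangeC561 K'
        → H561.AtomsC561 → H561.SigmaC561 K K' → IwSysUp865 K' → SU736.UpBasisC K K'

## The cut

The node `UpBasisC` of helper736 (adapted sequence WITH FINITE BLOCKS) has the same mathematical
content as the node `BlocksC561` of helper561 (blocks with the matrices of the operators) plus
his two leaves `AtomsC561` (TW-ATOMS on an abstract block, Mathlib only) and `ChangeC561`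
(unitary change inside the blocks).  All of them are registered and in work (rows 2188 - 2192,
2272 - 2279).  So NO NEW LEAF is opened: the top below derives `UpBasisC` from them.

* `e'` := the sequence `e₀` of `BlocksC561` ITSELF (no change of basis: the block identities are
  traces, `∑_a ⟨R(φ') R(σ) e₀_a, e₀_a⟩ = X(C) tr (B Z^k 𝒰^m A)`), `I` = the range of `idx`,
  `blk j` = the block of `j`, `J` = the block of `Φ`;
* atoms of the block `i`: `y = t i a`, `b = b i a`, `l = l i a` of `AtomsC561` (`R = √q`);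
* `summ`: `|t i a| ≤ |(Qᴴ (B A) Q)_{aa}|` = the modulus of the diagonal coefficient of
  `φ' g [] 0 0` at the member `idx i a` of the CHANGED sequence of `ChangeC561`, and the diagonal
  coefficients of a complete orthonormal sequence are absolutely summable (`StfUpC`);
* `cls_trace`: `∑_a t i₀ a = tr (B A)` (atoms at `k = m = 0`) `= ∑_a ⟨R(φ' g [] 0 0) R(σ) e₀_a,
  e₀_a⟩`, and `R(φ' g [] 0 0) R(σ) e₀_a = c_g(Φ) [U g U] R(σ) e₀_a` by OP-up (`R(σ) e₀_a` is an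
  eigenfunction for the data of `Φ`: `SigmaC561`; an eigenfunction for `C` is one for every `C'`
  agreeing with `C` outside `S'`: `isEigFn_congr865`).
* `IwSysUp865 K'` = the closed leaf `SD534.IwSysC K' K'` (row 2122), written out: an Iwahori
  coset system and a scalar uniformiser exist at every finite place.
* `BaseStable Dt → BaseStable561 Dt` is the field `level` of `T5.AutPreserves`.
-/

set_option autoImplicit false
set_option linter.unusedSectionVars false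
set_option linter.unusedVariables false

open AutomorphicForm IsDedekindDomain NumberField MeasureTheory
open scoped ComplexConjugate Matrix

noncomputable section

namespace Fermat.Agent.LT.T7.H865

open Fermat.Agent.LT.H556 Fermat.Agent.LT.H556.A0 Fermat.Agent.LT Fermat.Agent.LT.T7

attribute [local instance] Fermat.Agent.LT.T5.instMeasurableSpaceG

/-- An Iwahori coset system and a scalar uniformiser exist at every finite place (the Prop of
the closed leaf `SD534.IwSysC K' K'`, written out). -/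
def IwSysUp865 (K' : Type) [Field K'] [NumberField K'] : Prop :=
  ∀ u : HeightOneSpectrum (𝓞 K'),
    (∃ H : Finset (G K'), IsIwCosetSystem u H) ∧ ∃ z : G K', IsScalarUniformizerAt u z

section OneField

variable {K : Type} [Field K] [NumberField K]

theorem agreeOut_symm865 {S : Finset (HeightOneSpectrum (𝓞 K))} {C C' : EigData K}
    (h : C.AgreeOut S C') : C'.AgreeOut S C :=
  ⟨fun w hw => ⟨(h.1 w hw).1.symm, (h.1 w hw).2.symm⟩, fun w d hd => (h.2 w d hd).symm⟩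

theorem agreeOut_trans865 {S : Finset (HeightOneSpectrum (𝓞 K))} {C C' C'' : EigData K}
    (h : C.AgreeOut S C') (h' : C'.AgreeOut S C'') : C.AgreeOut S C'' :=
  ⟨fun w hw => ⟨(h.1 w hw).1.trans (h'.1 w hw).1, (h.1 w hw).2.trans (h'.1 w hw).2⟩,
    fun w d hd => (h.2 w d hd).trans (h'.2 w d hd)⟩

/-- An eigenfunction for `C` is an eigenfunction for every `C'` which agrees with `C` outside the
places dividing the level. -/
theorem isEigFn_congr865 {𝔫 : Ideal (𝓞 K)} {r : G K} {l : ℕ}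
    {o : ℕ → HeightOneSpectrum (𝓞 K)} {ψ : G K → ℂ} {C C' : EigData K}
    {S : Finset (HeightOneSpectrum (𝓞 K))}
    (hS : ∀ w : HeightOneSpectrum (𝓞 K), w ∈ S ↔ w.asIdeal ∣ 𝔫)
    (h : IsEigFn 𝔫 r l o ψ C) (hC : C.AgreeOut S C') : IsEigFn 𝔫 r l o ψ C' where
  inv := h.inv
  hecke := by
    intro v hv
    have hvS : v ∉ S := fun hmem => hv ((hS v).1 hmem)
    rw [← (hC.1 v hvS).1, ← (hC.1 v hvS).2]
    exact h.hecke v hv
  mean := by
    intro w d hd Y hY g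
    rw [← hC.2 w d hd]
    exact h.mean w d hd Y hY g

theorem wordEv_nil865 (D : EigData K) : wordEv ([] : List (Gen K)) D = 1 := rfl

end OneField

section Top

variable {K K' : Type} [Field K] [NumberField K] [Field K'] [NumberField K'] [Algebra K K']

/-- The diagonal of a conjugate. -/
theorem conj_diag865 {n : ℕ} (Q M : Matrix (Fin n) (Fin n) ℂ) (a : Fin n) :
    (Qᴴ * M * Q) a a = ∑ b, ∑ c, conj (Q c a) * M c b * Q b a := by
  rw [Matrix.mul_apply]
  refine Finset.sum_congr rfl fun b _ => ?_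
  rw [Matrix.mul_apply, Finset.sum_mul]
  refine Finset.sum_congr rfl fun c _ => ?_
  rw [Matrix.conjTranspose_apply]
  rfl

/-- **THE TOP OF THE NODE `UpBasisC`**: the bridge to the cut of helper561. -/
theorem upBasisC_of865 (hStf : SU736.StfUpC K K') (hB : H561.BlocksC561 K K')
    (hCh : H561.ChangeC561 K') (hA : H561.AtomsC561) (hS : H561.SigmaC561 K K')
    (hIw : IwSysUp865 K') : SU736.UpBasisC K K' := by
  classical
  intro ℓ hcyc hℓ hcplx Φ hΦ hconst Dt hDt hst g hg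
  have hst561 : H561.BaseStable561 Dt := hst.level
  have hcomp : IsCompData (Dt.comp g) := hDt.comp g hg
  obtain ⟨e₀, 𝔅, hBl⟩ := hB ℓ hcyc hℓ hcplx Φ hΦ hconst Dt hDt hst561 g hg
  obtain ⟨σC, -, hσ2, hσ3⟩ := hS ℓ hcyc hℓ hcplx Φ hΦ hconst Dt hDt hst561
  obtain ⟨⟨H, hH⟩, ⟨z, hz⟩⟩ := hIw (Dt.o 0)
  obtain ⟨i₀, hi₀⟩ := hBl.phi
  -- abbreviations
  set μ := Dt.R'.μ with hμ
  set F := Dt.R'.F with hF
  set q : ℝ := ((Ideal.absNorm (Dt.o 0).asIdeal : ℕ) : ℝ) with hq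
  have hℓ0 : 0 < ℓ := hcyc.prime.pos
  have hq1 : 1 ≤ q := by
    have h0 : Ideal.absNorm (Dt.o 0).asIdeal ≠ 0 := by
      rw [Ne, Ideal.absNorm_eq_zero_iff]
      exact (Dt.o 0).ne_bot
    have : 1 ≤ Ideal.absNorm (Dt.o 0).asIdeal := Nat.one_le_iff_ne_zero.2 h0
    rw [hq]
    exact_mod_cast this
  have hsq1 : 1 ≤ Real.sqrt q := by
    rw [← Real.sqrt_one]
    exact Real.sqrt_le_sqrt hq1
  -- the atoms of the blocks
  have hat : ∀ i : 𝔅.ι, ∃ (Q : Matrix (Fin (𝔅.n i)) (Fin (𝔅.n i)) ℂ)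
      (t b l : Fin (𝔅.n i) → ℂ),
      Q ∈ Matrix.unitaryGroup (Fin (𝔅.n i)) ℂ ∧
      (∀ a, t a = 0 ∨ t a = (Qᴴ * (𝔅.B i * 𝔅.A i) * Q) a a) ∧
      (∀ a, IsRegParam (Real.sqrt q) (b a) (l a)) ∧
      ∀ (k : ℤ) (m : ℕ),
        Matrix.trace (𝔅.B i * (𝔅.ρ i 0 * 𝔅.ρ i 0) ^ k
            * (((Real.sqrt q : ℝ) : ℂ)⁻¹ • (𝔅.S i 0 * 𝔅.ρ i 0)) ^ m * 𝔅.A i)
          = ∑ a, t a * b a ^ k * l a ^ m :=
    fun i => hA (𝔅.n i) ℓ q (𝔅.A i) (𝔅.B i) (𝔅.S i) (𝔅.ρ i) hℓ0 hq1 (hBl.iw i)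
  choose Q t bb ll hQ ht hreg htr using hat
  -- the changed sequence (used for the summability only)
  have hnorm : ∀ (i : 𝔅.ι) (a : Fin (𝔅.n i)),
      T5.innerD μ F (e₀ (𝔅.idx i a)) (e₀ (𝔅.idx i a)) = 1 := by
    intro i a
    have := (hBl.basis i).orth a a
    rwa [if_pos rfl] at this
  obtain ⟨e', hONB', -, -, hdiag'⟩ := hCh Dt.s (Dt.𝔑 g) μ F Dt.R'.r hcomp.frame'.frame
    hcomp.frame'.ray hcomp.aut e₀ hBl.onb 𝔅.ι 𝔅.n 𝔅.idx hBl.inj hnorm Q hQ
  -- the index bookkeeping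
  set f : (Σ i, Fin (𝔅.n i)) → ℕ := fun p => 𝔅.idx p.1 p.2 with hf
  have hfinj : Function.Injective f := by
    rintro ⟨i, a⟩ ⟨i', a'⟩ h
    exact hBl.inj i a i' a' h
  set dat : ℕ → Option (Σ i, Fin (𝔅.n i)) := Function.partialInv f with hdat
  have hdat_some : ∀ (i : 𝔅.ι) (a : Fin (𝔅.n i)), dat (𝔅.idx i a) = some ⟨i, a⟩ :=
    fun i a => Function.partialInv_left hfinj ⟨i, a⟩
  have hdat_inv : ∀ (j : ℕ) (p : Σ i, Fin (𝔅.n i)), dat j = some p → 𝔅.idx p.1 p.2 = j :=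
    fun j p h => (hfinj.isPartialInv p j).1 h
  have hidx_inj : ∀ i : 𝔅.ι, Function.Injective (𝔅.idx i) := by
    intro i a a' h
    have := hfinj (a₁ := ⟨i, a⟩) (a₂ := ⟨i, a'⟩) h
    exact eq_of_heq (Sigma.mk.inj this).2
  -- the data
  set I : Set ℕ := Set.range f with hI
  set blk : ℕ → Finset ℕ := fun j =>
    (dat j).elim ∅ (fun p => Finset.univ.image (𝔅.idx p.1)) with hblk
  set C : ℕ → EigData K' := fun j => (dat j).elim (𝔅.C i₀) (fun p => 𝔅.C p.1) with hC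
  set y : ℕ → ℂ := fun j => (dat j).elim 0 (fun p => t p.1 p.2) with hy
  set b : ℕ → ℂ := fun j => (dat j).elim 1 (fun p => bb p.1 p.2) with hb
  set l : ℕ → ℂ := fun j => (dat j).elim 1 (fun p => ll p.1 p.2) with hl
  set J : Finset ℕ := Finset.univ.image (𝔅.idx i₀) with hJ
  have hnone : ∀ j, j ∉ I → dat j = none := by
    intro j hj
    cases hd : dat j with
    | none => rfl
    | some p => exact absurd ⟨p, hdat_inv j p hd⟩ hj
  have hblk_idx : ∀ (i : 𝔅.ι) (a : Fin (𝔅.n i)),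
      blk (𝔅.idx i a) = Finset.univ.image (𝔅.idx i) := by
    intro i a
    show (dat (𝔅.idx i a)).elim ∅ (fun p => Finset.univ.image (𝔅.idx p.1)) = _
    rw [hdat_some]
    rfl
  have hC_idx : ∀ (i : 𝔅.ι) (a : Fin (𝔅.n i)), C (𝔅.idx i a) = 𝔅.C i := by
    intro i a
    show (dat (𝔅.idx i a)).elim (𝔅.C i₀) (fun p => 𝔅.C p.1) = _
    rw [hdat_some]
    rfl
  have hy_idx : ∀ (i : 𝔅.ι) (a : Fin (𝔅.n i)), y (𝔅.idx i a) = t i a := by
    intro i a
    show (dat (𝔅.idx i a)).elim 0 (fun p => t p.1 p.2) = _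
    rw [hdat_some]
    rfl
  have hb_idx : ∀ (i : 𝔅.ι) (a : Fin (𝔅.n i)), b (𝔅.idx i a) = bb i a := by
    intro i a
    show (dat (𝔅.idx i a)).elim 1 (fun p => bb p.1 p.2) = _
    rw [hdat_some]
    rfl
  have hl_idx : ∀ (i : 𝔅.ι) (a : Fin (𝔅.n i)), l (𝔅.idx i a) = ll i a := by
    intro i a
    show (dat (𝔅.idx i a)).elim 1 (fun p => ll p.1 p.2) = _
    rw [hdat_some]
    rfl
  have hy_out : ∀ j, j ∉ I → y j = 0 := by
    intro j hj
    show (dat j).elim 0 (fun p => t p.1 p.2) = 0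
    rw [hnone j hj]
    rfl
  -- the test functions
  have htest : ∀ (X : List (Gen K')) (k : ℤ) (m : ℕ), (∀ x ∈ X, x.Out Dt.S') →
      T5.IsTestFn (Dt.𝔑 g) T5.trivType (Dt.φ' g X k m) :=
    fun X k m hX => (hDt.ekprod_up g X k m hg hX).1
  have hnil : ∀ x ∈ ([] : List (Gen K')), x.Out Dt.S' := fun x hx => absurd hx (List.not_mem_nil)
  -- the sum of the diagonal coefficients over a block is a trace
  have hblock : ∀ (i : 𝔅.ι) (X : List (Gen K')) (k : ℤ) (m : ℕ), (∀ x ∈ X, x.Out Dt.S') →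
      ∑ a, T5.diagCoeff Dt.s μ F (Dt.φ' g X k m) (e₀ (𝔅.idx i a))
        = ∑ a, wordEv X (𝔅.C i) * t i a * bb i a ^ k * ll i a ^ m := by
    intro i X k m hX
    have h1 : ∀ a, T5.diagCoeff Dt.s μ F (Dt.φ' g X k m) (e₀ (𝔅.idx i a))
        = wordEv X (𝔅.C i) * (𝔅.B i * (𝔅.ρ i 0 * 𝔅.ρ i 0) ^ k
            * (((Real.sqrt q : ℝ) : ℂ)⁻¹ • (𝔅.S i 0 * 𝔅.ρ i 0)) ^ m * 𝔅.A i) a a :=
      fun a => hBl.coeff X hX k m i a a
    rw [Finset.sum_congr rfl fun a _ => h1 a, ← Finset.mul_sum]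
    have h2 : ∑ a, (𝔅.B i * (𝔅.ρ i 0 * 𝔅.ρ i 0) ^ k
        * (((Real.sqrt q : ℝ) : ℂ)⁻¹ • (𝔅.S i 0 * 𝔅.ρ i 0)) ^ m * 𝔅.A i) a a
        = ∑ a, t i a * bb i a ^ k * ll i a ^ m := htr i k m
    rw [h2, Finset.mul_sum]
    refine Finset.sum_congr rfl fun a _ => ?_
    ring
  -- the class of `Φ`
  have hmemS := hDt.mem_S'
  have heig0 : ∀ a : Fin (𝔅.n i₀),
      IsEigFn Dt.𝔑₀ Dt.R'.r ℓ Dt.o (e₀ (𝔅.idx i₀ a)) (eigOf Φ) :=
    fun a => isEigFn_congr865 hmemS ((hBl.basis i₀).eig a) hi₀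
  have heigσ : ∀ a : Fin (𝔅.n i₀),
      IsEigFn Dt.𝔑₀ Dt.R'.r ℓ Dt.o (T5.Rsig Dt.s (e₀ (𝔅.idx i₀ a))) (eigOf Φ) :=
    fun a => isEigFn_congr865 hmemS (hσ2 _ _ (heig0 a)) hσ3
  refine ⟨e₀, I, blk, C, b, l, y, Real.sqrt q, J, ?_⟩
  refine
    { onb := hBl.onb
      zero_out := ?_
      y_out := hy_out
      mem_blk := ?_
      blk_sub := ?_
      block := ?_
      summ := ?_
      unit := ?_
      reg := ?_
      cls_mem := ?_
      cls_agree := ?_
      cls_basis := ?_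
      cls_trace := ?_ }
  · -- zero_out
    intro j hj X k m hX
    refine hBl.off X hX k m j fun i a h => hj ⟨⟨i, a⟩, h⟩
  · -- mem_blk
    rintro j ⟨⟨i, a⟩, rfl⟩
    show 𝔅.idx i a ∈ blk (𝔅.idx i a)
    rw [hblk_idx]
    exact Finset.mem_image_of_mem _ (Finset.mem_univ a)
  · -- blk_sub
    rintro j ⟨⟨i, a⟩, rfl⟩ j' hj'
    have hj'' : j' ∈ blk (𝔅.idx i a) := hj'
    rw [hblk_idx, Finset.mem_image] at hj''
    obtain ⟨a', -, rfl⟩ := hj''
    refine ⟨⟨⟨i, a'⟩, rfl⟩, ?_⟩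
    show blk (𝔅.idx i a') = blk (𝔅.idx i a)
    rw [hblk_idx, hblk_idx]
  · -- block
    rintro j ⟨⟨i, a⟩, rfl⟩ X k m hX
    show ∑ j' ∈ blk (𝔅.idx i a), T5.diagCoeff Dt.s μ F (Dt.φ' g X k m) (e₀ j')
      = ∑ j' ∈ blk (𝔅.idx i a), wordEv X (C j') * y j' * b j' ^ k * l j' ^ m
    rw [hblk_idx, Finset.sum_image fun x _ x' _ h => hidx_inj i h,
      Finset.sum_image fun x _ x' _ h => hidx_inj i h, hblock i X k m hX]
    refine Finset.sum_congr rfl fun a' _ => ?_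
    rw [hC_idx, hy_idx, hb_idx, hl_idx]
  · -- summ
    have hs1 : Summable fun j => ‖T5.diagCoeff Dt.s μ F (Dt.φ' g [] 0 0) (e' j)‖ := by
      obtain ⟨-, φ₁, φ₂, t₁, t₂, k₁, k₁', k₂, k₂', hconv⟩ := hDt.ekprod_up g [] 0 0 hg hnil
      rw [hconv]
      exact ((hStf (Dt.comp g) hcomp Dt.R'.μ Dt.R'.F Dt.R'.r hcomp.frame'.frame
        hcomp.frame'.ray hcomp.aut e' hONB' φ₁ φ₂ t₁ t₂ k₁ k₁' k₂ k₂').1).norm
    refine Summable.of_nonneg_of_le (fun j => norm_nonneg _) (fun j => ?_) hs1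
    by_cases hj : j ∈ I
    · obtain ⟨⟨i, a⟩, rfl⟩ := hj
      show ‖y (𝔅.idx i a)‖ ≤ ‖T5.diagCoeff Dt.s μ F (Dt.φ' g [] 0 0) (e' (𝔅.idx i a))‖
      rw [hy_idx]
      rcases ht i a with h0 | h1
      · rw [h0, norm_zero]
        exact norm_nonneg _
      · refine le_of_eq ?_
        rw [h1, hdiag' (Dt.φ' g [] 0 0) (htest [] 0 0 hnil) i a, conj_diag865]
        refine congrArg _ (Finset.sum_congr rfl fun b' _ => Finset.sum_congr rfl fun c' _ => ?_)
        have := hBl.coeff [] hnil 0 0 i b' c'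
        rw [wordEv_nil865, one_mul, zpow_zero, pow_zero, mul_one, mul_one] at this
        rw [this]
    · rw [hy_out j hj, norm_zero]
      exact norm_nonneg _
  · -- unit
    intro j
    show ((dat j).elim (𝔅.C i₀) (fun p => 𝔅.C p.1)).IsUnitaryOut Dt.S'
    cases dat j with
    | none => exact hBl.unitary i₀
    | some p => exact hBl.unitary p.1
  · -- reg
    intro j
    show IsRegParam (Real.sqrt q) ((dat j).elim 1 (fun p => bb p.1 p.2))
      ((dat j).elim 1 (fun p => ll p.1 p.2))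
    cases dat j with
    | none =>
      show IsRegParam (Real.sqrt q) 1 1
      refine ⟨norm_one, ?_, Or.inl norm_one⟩
      rw [norm_one]
      exact hsq1
    | some p => exact hreg p.1 p.2
  · -- cls_mem
    intro j hagree hyj
    have hjI : j ∈ I := by
      by_contra hj
      exact hyj (hy_out j hj)
    obtain ⟨⟨i, a⟩, rfl⟩ := hjI
    have hagree' : (C (𝔅.idx i a)).AgreeOut Dt.S' (eigOf Φ) := hagree
    rw [hC_idx] at hagree'
    have hii : i = i₀ := hBl.distinct i i₀ (agreeOut_trans865 hagree' (agreeOut_symm865 hi₀))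
    subst hii
    exact Finset.mem_image_of_mem _ (Finset.mem_univ a)
  · -- cls_agree
    intro j hj
    rw [hJ, Finset.mem_image] at hj
    obtain ⟨a, -, rfl⟩ := hj
    show (C (𝔅.idx i₀ a)).AgreeOut Dt.S' (eigOf Φ)
    rw [hC_idx]
    exact hi₀
  · -- cls_basis
    refine ⟨?_, ?_, ?_, ?_⟩
    · intro j hj
      rw [hJ, Finset.mem_image] at hj
      obtain ⟨a, -, rfl⟩ := hj
      exact heig0 a
    · intro i hi j hj hij
      rw [hJ, Finset.mem_image] at hi hj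
      obtain ⟨a, -, rfl⟩ := hi
      obtain ⟨a', -, rfl⟩ := hj
      have haa : a ≠ a' := fun h => hij (by rw [h])
      have := (hBl.basis i₀).orth a a'
      rwa [if_neg haa] at this
    · intro j hj
      rw [hJ, Finset.mem_image] at hj
      obtain ⟨a, -, rfl⟩ := hj
      exact hnorm i₀ a
    · intro ψ hψ
      obtain ⟨c, hc⟩ := (hBl.basis i₀).span ψ (eigOf Φ) hψ (agreeOut_symm865 hi₀)
      refine ⟨fun j => ∑ a' : Fin (𝔅.n i₀), if 𝔅.idx i₀ a' = j then c a' else 0, fun x => ?_⟩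
      rw [hc x, hJ, Finset.sum_image fun x _ x' _ h => hidx_inj i₀ h]
      refine Finset.sum_congr rfl fun a _ => ?_
      congr 1
      show c a = ∑ a' : Fin (𝔅.n i₀), if 𝔅.idx i₀ a' = 𝔅.idx i₀ a then c a' else 0
      rw [Finset.sum_eq_single a]
      · rw [if_pos rfl]
      · intro a' _ ha'
        rw [if_neg fun h => ha' (hidx_inj i₀ h)]
      · intro h
        exact absurd (Finset.mem_univ a) h
  · -- cls_trace
    intro Hg hHg
    show ∑ j ∈ J, y j = Dt.c g (eigOf Φ)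
      * ∑ j ∈ J, T5.innerD Dt.R'.μ Dt.R'.F (cosetOp Hg (T5.Rsig Dt.s (e₀ j))) (e₀ j)
    rw [hJ, Finset.sum_image fun x _ x' _ h => hidx_inj i₀ h,
      Finset.sum_image fun x _ x' _ h => hidx_inj i₀ h, Finset.mul_sum]
    have h1 := hblock i₀ [] 0 0 hnil
    have h2 : ∑ a, y (𝔅.idx i₀ a) = ∑ a, wordEv [] (𝔅.C i₀) * t i₀ a * bb i₀ a ^ (0 : ℤ)
        * ll i₀ a ^ 0 := by
      refine Finset.sum_congr rfl fun a _ => ?_
      rw [hy_idx, wordEv_nil865, one_mul, zpow_zero, pow_zero, mul_one, mul_one]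
    rw [h2, ← h1]
    refine Finset.sum_congr rfl fun a _ => ?_
    -- OP-up for `R(σ) e₀_a`
    have hop := hDt.op_up g [] 0 0 hg hnil (T5.Rsig Dt.s (e₀ (𝔅.idx i₀ a))) (eigOf Φ)
      (heigσ a) Hg H z hHg hH hz
    show T5.innerD μ F (T5.Rconv μ (Dt.φ' g [] 0 0) (T5.Rsig Dt.s (e₀ (𝔅.idx i₀ a))))
        (e₀ (𝔅.idx i₀ a))
      = Dt.c g (eigOf Φ)
        * T5.innerD μ F (cosetOp Hg (T5.Rsig Dt.s (e₀ (𝔅.idx i₀ a)))) (e₀ (𝔅.idx i₀ a))
    show (∫ x in F, T5.Rconv μ (Dt.φ' g [] 0 0) (T5.Rsig Dt.s (e₀ (𝔅.idx i₀ a))) x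
          * conj (e₀ (𝔅.idx i₀ a) x) ∂μ)
      = Dt.c g (eigOf Φ)
        * ∫ x in F, cosetOp Hg (T5.Rsig Dt.s (e₀ (𝔅.idx i₀ a))) x
          * conj (e₀ (𝔅.idx i₀ a) x) ∂μ
    rw [← integral_const_mul]
    refine integral_congr_ae (Filter.Eventually.of_forall fun x => ?_)
    show T5.Rconv μ (Dt.φ' g [] 0 0) (T5.Rsig Dt.s (e₀ (𝔅.idx i₀ a))) x
        * conj (e₀ (𝔅.idx i₀ a) x)
      = Dt.c g (eigOf Φ) * (cosetOp Hg (T5.Rsig Dt.s (e₀ (𝔅.idx i₀ a))) x
        * conj (e₀ (𝔅.idx i₀ a) x))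
    rw [hop x, wordEv_nil865, one_mul, ← mul_assoc]
    congr 2
    show ∑ h ∈ Hg, ((iwOp (Dt.o 0) H)^[0] (T5.Rsig Dt.s (e₀ (𝔅.idx i₀ a))))
        (x * h * z ^ (0 : ℤ))
      = ∑ h ∈ Hg, T5.Rsig Dt.s (e₀ (𝔅.idx i₀ a)) (x * h)
    refine Finset.sum_congr rfl fun h _ => ?_
    rw [zpow_zero, mul_one]
    rfl

end Top

/-! ## Appendix: the equation lemmas of the definition are realised HERE -/

theorem eqns_realised_upBasis865 : True := by
  have _a1 := @IwSysUp865.eq_1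
  have _a2 := @IwSysUp865.eq_def
  have _a3 := @IwSysUp865.eq_unfold
  trivial

end Fermat.Agent.LT.T7.H865

end
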