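import Mathlib
import Fermat.Agent.LT.T7.H736.UpS
import Fermat.Agent.LT.T7.H561.OpsSpec
import Fermat.Agent.LT.T7.H865.UpBasisTop

/-!
# Row LT, tower T7, node T7.L2.2.E.2c `UpBasisUC` (CORE FORM, over `K'` alone; deputy
# sub-architect helper865): THE CUT with a PROVED top

OFF-MAIN.  Definitions, frozen Props, PROVED tops.  Nothing assumed, no hole.  ADDITIVE (new names
only, all ending in `865`).  Against `T7/H736/UpS.lean` (helper736@ef7c01058, sha256 98771005),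
`T7/H29/UpCore.lean` c2d817fc + `UpCore2.lean` 5e142413, `T7/H561/SpecUpSpec.lean` 383e6674 +
`BlocksSpec.lean` 5ceeaa4d + `OpsSpec.lean` 17293f38; byte-identical copies.

Ruling of helper797 (15:58Z): SPEC-UP IS PROVED ONCE, OVER `K'` ALONE (`H29.UpData`), so that the
cyclic step and the step `F/ℚ` (`ℓ = 2`) use the same proof.  The node of record is
`SU736.UpBasisUC K'`.  Its leaves are the leaves of the cut of helper561, which are typed on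
`L2Data K K'` (cyclic case only).  THIS FILE restates them VERBATIM on `H29.UpData K'`
(`Dt ↦ U`, hypotheses `ℓ.Prime`, `TotCplx K'`, `H29.IsUpData ℓ Φ U`, `H29.BaseStableU U`) and
proves the tops:

    upBasisUC_of865 : SU736.StfUC K' → BlocksUC865 K' → H561.ChangeC561 K' → H561.AtomsC561
                        → SigmaUC865 K' → IwSysUp865 K' → SU736.UpBasisUC K'
    blocksUC_of865  : BlocksAsmUC865 K' → WSpecUC865 K' → CompleteUC865 K' → SigmaUC865 K'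
                        → OpsUC865 K' → PhiUC865 K' → OffWUC865 K' → BlocksUC865 K'
    opsUC_of865     : IwSysExistsUC865 K' → OpsEigUC865 K' → OpsRelUC865 K' → OpsCommUC865 K'
                        → OpsPerUC865 K' → OpsAdjUC865 K' → OpsSigUC865 K' → OpsLinkUC865 K'
                        → BadOpUC865 K' → OpsUC865 K'
    upBasisUC_of_leaves865 : the 15 leaves + the closed ones → SU736.UpBasisUC K'

and the ADAPTERS to the forms of helper561 (`…C561_of_U865`): a proof of a core form gives the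
form typed on `L2Data` for free (`H29.upOf`, `H29.isUpData_upOf`), so NOTHING is proved twice:
the owners of the leaves of helper561 prove the CORE form (same proof with `U` in place of
`Dt`: every field of `IsL2Data` which is used is a field of `H29.IsUpData`; `const` is in the
form `T5.PlaceRel`).

`H561.ChangeC561 K'`, `H561.AtomsC561` are over `K'` alone already (closed: helper362,
helper899); `IwSysUp865 K'` is the closed leaf `SD534.IwSysC K' K'`; `SU736.StfUC K'` is closed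
(T5).
-/

set_option autoImplicit false
set_option linter.unusedSectionVars false
set_option linter.unusedVariables false

open AutomorphicForm IsDedekindDomain NumberField MeasureTheory
open scoped ComplexConjugate Matrix

noncomputable section

namespace Fermat.Agent.LT.T7.H865

open Fermat.Agent.LT.H556 Fermat.Agent.LT.H556.A0 Fermat.Agent.LT Fermat.Agent.LT.T7
open Fermat.Agent.LT.T7.H561

attribute [local instance] Fermat.Agent.LT.T5.instMeasurableSpaceG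

/-! ## 1. The structures, on the upstairs data -/

section Structs

variable {K' : Type} [Field K'] [NumberField K']

/-- `v` is an orthonormal basis of the class of `C`: the invariant cusp functions of the base (core form) -/
structure IsClassBasisU865 (U : H29.UpData K') (ℓ : ℕ) (C : EigData K') (n : ℕ)
    (v : Fin n → G K' → ℂ) : Prop where
  eig : ∀ a, IsEigFn U.𝔑₀ U.R'.r ℓ U.o (v a) C
  orth : ∀ a b, T5.innerD U.R'.μ U.R'.F (v a) (v b) = if a = b then 1 else 0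
  span : ∀ (ψ : G K' → ℂ) (C' : EigData K'), IsEigFn U.𝔑₀ U.R'.r ℓ U.o ψ C' →
    C'.AgreeOut U.S' C → ∃ c : Fin n → ℂ, ∀ x : G K', ψ x = ∑ a, c a * v a x

/-- The properties of the blocks for the bad element `g` in the complete orthonormal sequence (core form) -/
structure IsBlocksU865 (ℓ : ℕ) (Φ : HeckeEigensystem K' ℂ) (U : H29.UpData K') (g : G K')
    (e₀ : ℕ → G K' → ℂ) (𝔅 : Blocks561 K') : Prop where
  onb : T5.IsCuspONB (U.𝔑 g) T5.trivType U.R'.r U.R'.μ U.R'.F e₀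
  inj : ∀ (i : 𝔅.ι) (a : Fin (𝔅.n i)) (i' : 𝔅.ι) (a' : Fin (𝔅.n i')),
    𝔅.idx i a = 𝔅.idx i' a' → (⟨i, a⟩ : Σ i, Fin (𝔅.n i)) = ⟨i', a'⟩
  unitary : ∀ i, (𝔅.C i).IsUnitaryOut U.S'
  distinct : ∀ i i', (𝔅.C i).AgreeOut U.S' (𝔅.C i') → i = i'
  basis : ∀ i, IsClassBasisU865 U ℓ (𝔅.C i) (𝔅.n i) (fun a => e₀ (𝔅.idx i a))
  phi : ∃ i, (𝔅.C i).AgreeOut U.S' (eigOf Φ)
  iw : ∀ i, IsIwBlock561 ℓ ((Ideal.absNorm (U.o 0).asIdeal : ℕ) : ℝ)
    (𝔅.A i) (𝔅.B i) (𝔅.S i) (𝔅.ρ i)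
  /-- the matrix coefficients inside a block -/
  coeff : ∀ X : List (Gen K'), (∀ x ∈ X, x.Out U.S') →
    ∀ (k : ℤ) (m : ℕ) (i : 𝔅.ι) (a b : Fin (𝔅.n i)),
      T5.innerD U.R'.μ U.R'.F
          (T5.Rconv U.R'.μ (U.φ' g X k m) (T5.Rsig U.s (e₀ (𝔅.idx i a))))
          (e₀ (𝔅.idx i b))
        = wordEv X (𝔅.C i)
          * (𝔅.B i * (𝔅.ρ i 0 * 𝔅.ρ i 0) ^ k
              * (((Real.sqrt ((Ideal.absNorm (U.o 0).asIdeal : ℕ) : ℝ) : ℝ) : ℂ)⁻¹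
                  • (𝔅.S i 0 * 𝔅.ρ i 0)) ^ m
              * 𝔅.A i) b a
  /-- the diagonal coefficients outside the blocks vanish -/
  off : ∀ X : List (Gen K'), (∀ x ∈ X, x.Out U.S') → ∀ (k : ℤ) (m : ℕ) (j : ℕ),
    (∀ (i : 𝔅.ι) (a : Fin (𝔅.n i)), 𝔅.idx i a ≠ j) →
    T5.diagCoeff U.s U.R'.μ U.R'.F (U.φ' g X k m) (e₀ j) = 0

/-- **The spectrum of the invariant cusp functions of the base level**  CORE FORM (on `H29.UpData`) of the declaration of the same name of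
helper561 (`T7/H561/{SpecUpSpec, BlocksSpec, OpsSpec}.lean`): see the proof sketch there. -/
structure IsWSpecU865 (U : H29.UpData K') (ℓ : ℕ) (ι : Type) (n : ι → ℕ) (C : ι → EigData K')
    (v : (i : ι) → Fin (n i) → G K' → ℂ) : Prop where
  countable : Countable ι
  unitary : ∀ i, (C i).IsUnitaryOut U.S'
  distinct : ∀ i i', (C i).AgreeOut U.S' (C i') → i = i'
  basis : ∀ i, IsClassBasisU865 U ℓ (C i) (n i) (v i)
  orth : ∀ (i i' : ι) (a : Fin (n i)) (a' : Fin (n i')), i ≠ i' →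
    T5.innerD U.R'.μ U.R'.F (v i a) (v i' a') = 0
  complete : ∀ ψ : G K' → ℂ, IsWFn U.𝔑₀ U.R'.r ℓ U.o ψ →
    HasSum (fun p : Σ i, Fin (n i) => ‖T5.innerD U.R'.μ U.R'.F ψ (v p.1 p.2)‖ ^ 2)
      (T5.innerD U.R'.μ U.R'.F ψ ψ).re
  cover : ∀ (ψ : G K' → ℂ) (C' : EigData K'), IsEigFn U.𝔑₀ U.R'.r ℓ U.o ψ C' →
    (∃ x : G K', ψ x ≠ 0) → ∃ i, C'.AgreeOut U.S' (C i)

/-- **The operators on the invariant cusp functions of the base level**  CORE FORM (on `H29.UpData`) of the declaration of the same name of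
helper561 (`T7/H561/{SpecUpSpec, BlocksSpec, OpsSpec}.lean`): see the proof sketch there. -/
structure IsWOpsU865 (U : H29.UpData K') (ℓ : ℕ) (g : G K') (Hs : ℕ → Finset (G K'))
    (ω : ℕ → G K') (Hg : Finset (G K')) : Prop where
  S_eig : ∀ (j : ℕ) (ψ : G K' → ℂ) (C : EigData K'), IsEigFn U.𝔑₀ U.R'.r ℓ U.o ψ C →
    IsEigFn U.𝔑₀ U.R'.r ℓ U.o (cosetOp (Hs j) ψ) C
  ρ_eig : ∀ (j : ℕ) (ψ : G K' → ℂ) (C : EigData K'), IsEigFn U.𝔑₀ U.R'.r ℓ U.o ψ C →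
    IsEigFn U.𝔑₀ U.R'.r ℓ U.o (trOp561 (ω j) ψ) C
  B_eig : ∀ (ψ : G K' → ℂ) (C : EigData K'), IsEigFn U.𝔑₀ U.R'.r ℓ U.o ψ C →
    IsEigFn U.𝔑₀ U.R'.r ℓ U.o (cosetOp Hg ψ) C
  S_quad : ∀ (j : ℕ) (ψ : G K' → ℂ), IsWFn U.𝔑₀ U.R'.r ℓ U.o ψ → ∀ x : G K',
    cosetOp (Hs j) (cosetOp (Hs j) ψ) x
      = (((Ideal.absNorm (U.o 0).asIdeal : ℕ) : ℂ) - 1) * cosetOp (Hs j) ψ x
        + ((Ideal.absNorm (U.o 0).asIdeal : ℕ) : ℂ) * ψ x
  ρ_central : ∀ (j : ℕ) (ψ : G K' → ℂ), IsWFn U.𝔑₀ U.R'.r ℓ U.o ψ → ∀ x : G K',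
    trOp561 (ω j) (trOp561 (ω j) (cosetOp (Hs j) ψ)) x
      = cosetOp (Hs j) (trOp561 (ω j) (trOp561 (ω j) ψ)) x
  comm_SS : ∀ j j' : ℕ, j < ℓ → j' < ℓ → j ≠ j' →
    ∀ ψ : G K' → ℂ, IsWFn U.𝔑₀ U.R'.r ℓ U.o ψ → ∀ x : G K',
      cosetOp (Hs j) (cosetOp (Hs j') ψ) x = cosetOp (Hs j') (cosetOp (Hs j) ψ) x
  comm_Sρ : ∀ j j' : ℕ, j < ℓ → j' < ℓ → j ≠ j' →
    ∀ ψ : G K' → ℂ, IsWFn U.𝔑₀ U.R'.r ℓ U.o ψ → ∀ x : G K',
      cosetOp (Hs j) (trOp561 (ω j') ψ) x = trOp561 (ω j') (cosetOp (Hs j) ψ) x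
  comm_ρρ : ∀ j j' : ℕ, j < ℓ → j' < ℓ → j ≠ j' →
    ∀ ψ : G K' → ℂ, IsWFn U.𝔑₀ U.R'.r ℓ U.o ψ → ∀ x : G K',
      trOp561 (ω j) (trOp561 (ω j') ψ) x = trOp561 (ω j') (trOp561 (ω j) ψ) x
  per_S : ∀ (j : ℕ) (ψ : G K' → ℂ), IsWFn U.𝔑₀ U.R'.r ℓ U.o ψ → ∀ x : G K',
    cosetOp (Hs (j + ℓ)) ψ x = cosetOp (Hs j) ψ x
  per_ρ : ∀ (j : ℕ) (ψ : G K' → ℂ), IsWFn U.𝔑₀ U.R'.r ℓ U.o ψ → ∀ x : G K',
    trOp561 (ω (j + ℓ)) ψ x = trOp561 (ω j) ψ x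
  B_S : ∀ (j : ℕ) (ψ : G K' → ℂ), IsWFn U.𝔑₀ U.R'.r ℓ U.o ψ → ∀ x : G K',
    cosetOp Hg (cosetOp (Hs j) ψ) x = cosetOp (Hs j) (cosetOp Hg ψ) x
  B_ρ : ∀ (j : ℕ) (ψ : G K' → ℂ), IsWFn U.𝔑₀ U.R'.r ℓ U.o ψ → ∀ x : G K',
    cosetOp Hg (trOp561 (ω j) ψ) x = trOp561 (ω j) (cosetOp Hg ψ) x
  S_adj : ∀ (j : ℕ) (ψ χ : G K' → ℂ), IsWFn U.𝔑₀ U.R'.r ℓ U.o ψ →
    IsWFn U.𝔑₀ U.R'.r ℓ U.o χ →
    T5.innerD U.R'.μ U.R'.F (cosetOp (Hs j) ψ) χ
      = T5.innerD U.R'.μ U.R'.F ψ (cosetOp (Hs j) χ)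
  ρ_iso : ∀ (j : ℕ) (ψ χ : G K' → ℂ), IsWFn U.𝔑₀ U.R'.r ℓ U.o ψ →
    IsWFn U.𝔑₀ U.R'.r ℓ U.o χ →
    T5.innerD U.R'.μ U.R'.F (trOp561 (ω j) ψ) (trOp561 (ω j) χ)
      = T5.innerD U.R'.μ U.R'.F ψ χ
  σ_S : ∀ (j : ℕ) (ψ : G K' → ℂ), IsWFn U.𝔑₀ U.R'.r ℓ U.o ψ → ∀ x : G K',
    T5.Rsig U.s (cosetOp (Hs j) ψ) x = cosetOp (Hs (j + 1)) (T5.Rsig U.s ψ) x
  σ_ρ : ∀ (j : ℕ) (ψ : G K' → ℂ), IsWFn U.𝔑₀ U.R'.r ℓ U.o ψ → ∀ x : G K',
    T5.Rsig U.s (trOp561 (ω j) ψ) x = trOp561 (ω (j + 1)) (T5.Rsig U.s ψ) x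
  dbl : IsDblCosetSystem U.𝔑₀ g Hg
  iwsys : IsIwCosetSystem (U.o 0) ((Hs 0).map (mulRightEmbedding (ω 0)))
  unif : IsScalarUniformizerAt (U.o 0) (ω 0 * ω 0)

/-- The hypotheses of the core nodes on the data (`ℓ = 2` allowed). -/
structure IsSetupU865 (ℓ : ℕ) (Φ : HeckeEigensystem K' ℂ) (U : H29.UpData K') : Prop where
  prime : ℓ.Prime
  cplx : TotCplx K'
  cusp : A0.IsCuspAdelicSph0 K' Φ
  data : H29.IsUpData ℓ Φ U

/-- **The explicit systems along the orbit.**  CORE FORM (on `H29.UpData`) of the declaration of the same name of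
helper561 (`T7/H561/{SpecUpSpec, BlocksSpec, OpsSpec}.lean`): see the proof sketch there. -/
structure IsIwSysU865 (U : H29.UpData K') (Hs : ℕ → Finset (G K')) (ω : ℕ → G K') : Prop where
  ω_local : ∀ j, IsLocalAtFin (U.o j) (ω j)
  ω_comp : ∀ j, ∃ c : (U.o j).adicCompletion K', Valued.v c = WithZero.exp (-1 : ℤ) ∧
    finComp (U.o j) (ω j) = !![0, 1; c, 0]
  Hs_card : ∀ j, (Hs j).card = Ideal.absNorm (U.o j).asIdeal
  Hs_local : ∀ j, ∀ h ∈ Hs j, IsLocalAtFin (U.o j) h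
  Hs_comp : ∀ j, ∀ h ∈ Hs j, ∃ a : (U.o j).adicCompletion K',
    a ∈ (U.o j).adicCompletionIntegers K' ∧ finComp (U.o j) h = !![a, 1; 1, 0]
  Hs_inj : ∀ j, ∀ h ∈ Hs j, ∀ h' ∈ Hs j, h ≠ h' → ¬ T5.InIwahori (U.o j) (h⁻¹ * h')

end Structs

/-! ## 2. The Props, core form -/

section Props

variable (K' : Type) [Field K'] [NumberField K']

/-- **NODE T7.L2.2.B = BLOCKS.**  CORE FORM (on `H29.UpData`) of the declaration of the same name of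
helper561 (`T7/H561/{SpecUpSpec, BlocksSpec, OpsSpec}.lean`): see the proof sketch there. -/
def BlocksUC865 : Prop :=
  ∀ ℓ : ℕ, ℓ.Prime → TotCplx K' →
    ∀ Φ : HeckeEigensystem K' ℂ, A0.IsCuspAdelicSph0 K' Φ →
      ∀ U : H29.UpData K', H29.IsUpData ℓ Φ U → H29.BaseStableU U →
      ∀ g : G K', U.IsBad g →
        ∃ (e₀ : ℕ → G K' → ℂ) (𝔅 : Blocks561 K'), IsBlocksU865 ℓ Φ U g e₀ 𝔅

/-- **LEAF T7.L2.2.B1 = W-SPEC.**  CORE FORM (on `H29.UpData`) of the declaration of the same name of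
helper561 (`T7/H561/{SpecUpSpec, BlocksSpec, OpsSpec}.lean`): see the proof sketch there. -/
def WSpecUC865 : Prop :=
  ∀ ℓ : ℕ, ℓ.Prime → TotCplx K' →
    ∀ Φ : HeckeEigensystem K' ℂ, A0.IsCuspAdelicSph0 K' Φ →
      ∀ U : H29.UpData K', H29.IsUpData ℓ Φ U →
        ∃ (ι : Type) (n : ι → ℕ) (C : ι → EigData K') (v : (i : ι) → Fin (n i) → G K' → ℂ),
          IsWSpecU865 U ℓ ι n C v

/-- **LEAF T7.L2.2.B2 = COMPLETE.**  CORE FORM (on `H29.UpData`) of the declaration of the same name of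
helper561 (`T7/H561/{SpecUpSpec, BlocksSpec, OpsSpec}.lean`): see the proof sketch there. -/
def CompleteUC865 : Prop :=
  ∀ ℓ : ℕ, ℓ.Prime → TotCplx K' →
    ∀ Φ : HeckeEigensystem K' ℂ, A0.IsCuspAdelicSph0 K' Φ →
      ∀ U : H29.UpData K', H29.IsUpData ℓ Φ U → ∀ g : G K', U.IsBad g →
      ∀ (ι : Type) (n : ι → ℕ) (C : ι → EigData K') (v : (i : ι) → Fin (n i) → G K' → ℂ),
        IsWSpecU865 U ℓ ι n C v →
        ∃ (e₀ : ℕ → G K' → ℂ) (idx : (i : ι) → Fin (n i) → ℕ),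
          T5.IsCuspONB (U.𝔑 g) T5.trivType U.R'.r U.R'.μ U.R'.F e₀ ∧
          (∀ (i : ι) (a : Fin (n i)) (i' : ι) (a' : Fin (n i')), idx i a = idx i' a' →
            (⟨i, a⟩ : Σ i, Fin (n i)) = ⟨i', a'⟩) ∧
          (∀ (i : ι) (a : Fin (n i)), e₀ (idx i a) = v i a) ∧
          ∀ j : ℕ, (∀ (i : ι) (a : Fin (n i)), idx i a ≠ j) →
            ∀ χ : G K' → ℂ, IsWFn U.𝔑₀ U.R'.r ℓ U.o χ →
              T5.innerD U.R'.μ U.R'.F (e₀ j) χ = 0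

/-- **LEAF T7.L2.2.B3 = SIGMA.**  CORE FORM (on `H29.UpData`) of the declaration of the same name of
helper561 (`T7/H561/{SpecUpSpec, BlocksSpec, OpsSpec}.lean`): see the proof sketch there. -/
def SigmaUC865 : Prop :=
  ∀ ℓ : ℕ, ℓ.Prime → TotCplx K' →
    ∀ Φ : HeckeEigensystem K' ℂ, A0.IsCuspAdelicSph0 K' Φ →
      ∀ U : H29.UpData K', H29.IsUpData ℓ Φ U → H29.BaseStableU U →
        ∃ σC : EigData K' → EigData K',
          (∀ C C' : EigData K', C.AgreeOut U.S' C' → (σC C).AgreeOut U.S' (σC C')) ∧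
          (∀ (ψ : G K' → ℂ) (C : EigData K'), IsEigFn U.𝔑₀ U.R'.r ℓ U.o ψ C →
            IsEigFn U.𝔑₀ U.R'.r ℓ U.o (T5.Rsig U.s ψ) (σC C)) ∧
          (σC (eigOf Φ)).AgreeOut U.S' (eigOf Φ)

/-- **NODE T7.L2.2.B4 = OPS.**  CORE FORM (on `H29.UpData`) of the declaration of the same name of
helper561 (`T7/H561/{SpecUpSpec, BlocksSpec, OpsSpec}.lean`): see the proof sketch there. -/
def OpsUC865 : Prop :=
  ∀ ℓ : ℕ, ℓ.Prime → TotCplx K' →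
    ∀ Φ : HeckeEigensystem K' ℂ, A0.IsCuspAdelicSph0 K' Φ →
      ∀ U : H29.UpData K', H29.IsUpData ℓ Φ U → H29.BaseStableU U → ∀ g : G K', U.IsBad g →
        ∃ (Hs : ℕ → Finset (G K')) (ω : ℕ → G K') (Hg : Finset (G K')),
          IsWOpsU865 U ℓ g Hs ω Hg

/-- **LEAF T7.L2.2.B5 = PHI.**  CORE FORM (on `H29.UpData`) of the declaration of the same name of
helper561 (`T7/H561/{SpecUpSpec, BlocksSpec, OpsSpec}.lean`): see the proof sketch there. -/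
def PhiUC865 : Prop :=
  ∀ ℓ : ℕ, ℓ.Prime → TotCplx K' →
    ∀ Φ : HeckeEigensystem K' ℂ, A0.IsCuspAdelicSph0 K' Φ →
      ∀ U : H29.UpData K', H29.IsUpData ℓ Φ U →
        ∃ ψ : G K' → ℂ, IsEigFn U.𝔑₀ U.R'.r ℓ U.o ψ (eigOf Φ) ∧ ∃ x : G K', ψ x ≠ 0

/-- **LEAF T7.L2.2.B6 = OFF-W.**  CORE FORM (on `H29.UpData`) of the declaration of the same name of
helper561 (`T7/H561/{SpecUpSpec, BlocksSpec, OpsSpec}.lean`): see the proof sketch there. -/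
def OffWUC865 : Prop :=
  ∀ ℓ : ℕ, ℓ.Prime → TotCplx K' →
    ∀ Φ : HeckeEigensystem K' ℂ, A0.IsCuspAdelicSph0 K' Φ →
      ∀ U : H29.UpData K', H29.IsUpData ℓ Φ U → ∀ g : G K', U.IsBad g →
      ∀ (ι : Type) (n : ι → ℕ) (C : ι → EigData K') (v : (i : ι) → Fin (n i) → G K' → ℂ),
        IsWSpecU865 U ℓ ι n C v →
        (∀ X : List (Gen K'), (∀ x ∈ X, x.Out U.S') → ∀ (k : ℤ) (m : ℕ) (ψ : G K' → ℂ)
          (C' : EigData K'), IsEigFn U.𝔑₀ U.R'.r ℓ U.o ψ C' →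
            IsWFn U.𝔑₀ U.R'.r ℓ U.o (T5.Rconv U.R'.μ (U.φ' g X k m) ψ)) →
        ∀ e : G K' → ℂ, T5.IsCuspFn (U.𝔑 g) T5.trivType U.R'.r e →
          (∀ χ : G K' → ℂ, IsWFn U.𝔑₀ U.R'.r ℓ U.o χ →
            T5.innerD U.R'.μ U.R'.F e χ = 0) →
          ∀ X : List (Gen K'), (∀ x ∈ X, x.Out U.S') → ∀ (k : ℤ) (m : ℕ),
            T5.diagCoeff U.s U.R'.μ U.R'.F (U.φ' g X k m) e = 0

/-- **LEAF T7.L2.2.B7 = BLOCKS-ASSEMBLY.**  CORE FORM (on `H29.UpData`) of the declaration of the same name of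
helper561 (`T7/H561/{SpecUpSpec, BlocksSpec, OpsSpec}.lean`): see the proof sketch there. -/
def BlocksAsmUC865 : Prop :=
  WSpecUC865 K' → CompleteUC865 K' → SigmaUC865 K' → OpsUC865 K' → PhiUC865 K' →
    OffWUC865 K' → BlocksUC865 K'

/-- **LEAF B4.1 = IW-SYS-EXISTS.**  CORE FORM (on `H29.UpData`) of the declaration of the same name of
helper561 (`T7/H561/{SpecUpSpec, BlocksSpec, OpsSpec}.lean`): see the proof sketch there. -/
def IwSysExistsUC865 : Prop :=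
  ∀ (ℓ : ℕ) (Φ : HeckeEigensystem K' ℂ) (U : H29.UpData K'), IsSetupU865 ℓ Φ U →
    ∃ (Hs : ℕ → Finset (G K')) (ω : ℕ → G K'), IsIwSysU865 U Hs ω

/-- **LEAF B4.2 = OPS-EIG.**  CORE FORM (on `H29.UpData`) of the declaration of the same name of
helper561 (`T7/H561/{SpecUpSpec, BlocksSpec, OpsSpec}.lean`): see the proof sketch there. -/
def OpsEigUC865 : Prop :=
  ∀ (ℓ : ℕ) (Φ : HeckeEigensystem K' ℂ) (U : H29.UpData K'), IsSetupU865 ℓ Φ U →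
    ∀ (Hs : ℕ → Finset (G K')) (ω : ℕ → G K'), IsIwSysU865 U Hs ω →
      ∀ (j : ℕ) (ψ : G K' → ℂ) (C : EigData K'), IsEigFn U.𝔑₀ U.R'.r ℓ U.o ψ C →
        IsEigFn U.𝔑₀ U.R'.r ℓ U.o (cosetOp (Hs j) ψ) C ∧
        IsEigFn U.𝔑₀ U.R'.r ℓ U.o (trOp561 (ω j) ψ) C

/-- **LEAF B4.3 = OPS-REL.**  CORE FORM (on `H29.UpData`) of the declaration of the same name of
helper561 (`T7/H561/{SpecUpSpec, BlocksSpec, OpsSpec}.lean`): see the proof sketch there. -/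
def OpsRelUC865 : Prop :=
  ∀ (ℓ : ℕ) (Φ : HeckeEigensystem K' ℂ) (U : H29.UpData K'), IsSetupU865 ℓ Φ U →
    ∀ (Hs : ℕ → Finset (G K')) (ω : ℕ → G K'), IsIwSysU865 U Hs ω →
      ∀ (j : ℕ) (ψ : G K' → ℂ), IsWFn U.𝔑₀ U.R'.r ℓ U.o ψ → ∀ x : G K',
        cosetOp (Hs j) (cosetOp (Hs j) ψ) x
          = (((Ideal.absNorm (U.o 0).asIdeal : ℕ) : ℂ) - 1) * cosetOp (Hs j) ψ x
            + ((Ideal.absNorm (U.o 0).asIdeal : ℕ) : ℂ) * ψ x ∧
        trOp561 (ω j) (trOp561 (ω j) (cosetOp (Hs j) ψ)) x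
          = cosetOp (Hs j) (trOp561 (ω j) (trOp561 (ω j) ψ)) x

/-- **LEAF B4.4 = OPS-COMM.**  CORE FORM (on `H29.UpData`) of the declaration of the same name of
helper561 (`T7/H561/{SpecUpSpec, BlocksSpec, OpsSpec}.lean`): see the proof sketch there. -/
def OpsCommUC865 : Prop :=
  ∀ (ℓ : ℕ) (Φ : HeckeEigensystem K' ℂ) (U : H29.UpData K'), IsSetupU865 ℓ Φ U →
    ∀ (Hs : ℕ → Finset (G K')) (ω : ℕ → G K'), IsIwSysU865 U Hs ω →
      ∀ j j' : ℕ, j < ℓ → j' < ℓ → j ≠ j' → ∀ (ψ : G K' → ℂ) (x : G K'),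
        cosetOp (Hs j) (cosetOp (Hs j') ψ) x = cosetOp (Hs j') (cosetOp (Hs j) ψ) x ∧
        cosetOp (Hs j) (trOp561 (ω j') ψ) x = trOp561 (ω j') (cosetOp (Hs j) ψ) x ∧
        trOp561 (ω j) (trOp561 (ω j') ψ) x = trOp561 (ω j') (trOp561 (ω j) ψ) x

/-- **LEAF B4.5 = OPS-PER.**  CORE FORM (on `H29.UpData`) of the declaration of the same name of
helper561 (`T7/H561/{SpecUpSpec, BlocksSpec, OpsSpec}.lean`): see the proof sketch there. -/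
def OpsPerUC865 : Prop :=
  ∀ (ℓ : ℕ) (Φ : HeckeEigensystem K' ℂ) (U : H29.UpData K'), IsSetupU865 ℓ Φ U →
    ∀ (Hs : ℕ → Finset (G K')) (ω : ℕ → G K'), IsIwSysU865 U Hs ω →
      ∀ (j : ℕ) (ψ : G K' → ℂ), IsWFn U.𝔑₀ U.R'.r ℓ U.o ψ → ∀ x : G K',
        cosetOp (Hs (j + ℓ)) ψ x = cosetOp (Hs j) ψ x ∧
        trOp561 (ω (j + ℓ)) ψ x = trOp561 (ω j) ψ x

/-- **LEAF B4.6 = OPS-ADJ.**  CORE FORM (on `H29.UpData`) of the declaration of the same name of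
helper561 (`T7/H561/{SpecUpSpec, BlocksSpec, OpsSpec}.lean`): see the proof sketch there. -/
def OpsAdjUC865 : Prop :=
  ∀ (ℓ : ℕ) (Φ : HeckeEigensystem K' ℂ) (U : H29.UpData K'), IsSetupU865 ℓ Φ U →
    ∀ (Hs : ℕ → Finset (G K')) (ω : ℕ → G K'), IsIwSysU865 U Hs ω →
      ∀ (j : ℕ) (ψ χ : G K' → ℂ), IsWFn U.𝔑₀ U.R'.r ℓ U.o ψ →
        IsWFn U.𝔑₀ U.R'.r ℓ U.o χ →
        T5.innerD U.R'.μ U.R'.F (cosetOp (Hs j) ψ) χ
          = T5.innerD U.R'.μ U.R'.F ψ (cosetOp (Hs j) χ) ∧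
        T5.innerD U.R'.μ U.R'.F (trOp561 (ω j) ψ) (trOp561 (ω j) χ)
          = T5.innerD U.R'.μ U.R'.F ψ χ

/-- **LEAF B4.7 = OPS-SIGMA.**  CORE FORM (on `H29.UpData`) of the declaration of the same name of
helper561 (`T7/H561/{SpecUpSpec, BlocksSpec, OpsSpec}.lean`): see the proof sketch there. -/
def OpsSigUC865 : Prop :=
  ∀ (ℓ : ℕ) (Φ : HeckeEigensystem K' ℂ) (U : H29.UpData K'), IsSetupU865 ℓ Φ U →
    H29.BaseStableU U →
    ∀ (Hs : ℕ → Finset (G K')) (ω : ℕ → G K'), IsIwSysU865 U Hs ω →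
      ∀ (j : ℕ) (ψ : G K' → ℂ), IsWFn U.𝔑₀ U.R'.r ℓ U.o ψ → ∀ x : G K',
        T5.Rsig U.s (cosetOp (Hs j) ψ) x = cosetOp (Hs (j + 1)) (T5.Rsig U.s ψ) x ∧
        T5.Rsig U.s (trOp561 (ω j) ψ) x = trOp561 (ω (j + 1)) (T5.Rsig U.s ψ) x

/-- **LEAF B4.8 = OPS-LINK.**  CORE FORM (on `H29.UpData`) of the declaration of the same name of
helper561 (`T7/H561/{SpecUpSpec, BlocksSpec, OpsSpec}.lean`): see the proof sketch there. -/
def OpsLinkUC865 : Prop :=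
  ∀ (ℓ : ℕ) (Φ : HeckeEigensystem K' ℂ) (U : H29.UpData K'), IsSetupU865 ℓ Φ U →
    ∀ (Hs : ℕ → Finset (G K')) (ω : ℕ → G K'), IsIwSysU865 U Hs ω →
      IsIwCosetSystem (U.o 0) ((Hs 0).map (mulRightEmbedding (ω 0))) ∧
      IsScalarUniformizerAt (U.o 0) (ω 0 * ω 0)

/-- **LEAF B4.9 = BAD-OP.**  CORE FORM (on `H29.UpData`) of the declaration of the same name of
helper561 (`T7/H561/{SpecUpSpec, BlocksSpec, OpsSpec}.lean`): see the proof sketch there. -/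
def BadOpUC865 : Prop :=
  ∀ (ℓ : ℕ) (Φ : HeckeEigensystem K' ℂ) (U : H29.UpData K'), IsSetupU865 ℓ Φ U →
    ∀ g : G K', U.IsBad g →
      ∃ Hg : Finset (G K'), IsDblCosetSystem U.𝔑₀ g Hg ∧
        (∀ (ψ : G K' → ℂ) (C : EigData K'), IsEigFn U.𝔑₀ U.R'.r ℓ U.o ψ C →
          IsEigFn U.𝔑₀ U.R'.r ℓ U.o (cosetOp Hg ψ) C) ∧
        ∀ (Hs : ℕ → Finset (G K')) (ω : ℕ → G K'), IsIwSysU865 U Hs ω →
          ∀ (j : ℕ) (ψ : G K' → ℂ), IsWFn U.𝔑₀ U.R'.r ℓ U.o ψ → ∀ x : G K',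
            cosetOp Hg (cosetOp (Hs j) ψ) x = cosetOp (Hs j) (cosetOp Hg ψ) x ∧
            cosetOp Hg (trOp561 (ω j) ψ) x = trOp561 (ω j) (cosetOp Hg ψ) x

end Props

/-! ## 3. The tops -/

section Tops

variable {K' : Type} [Field K'] [NumberField K']

/-- **THE TOP OF THE NODE `BlocksUC865`.** -/
theorem blocksUC_of865 (hZ : BlocksAsmUC865 K') (hW : WSpecUC865 K') (hC : CompleteUC865 K')
    (hS : SigmaUC865 K') (hO : OpsUC865 K') (hP : PhiUC865 K') (hF : OffWUC865 K') :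
    BlocksUC865 K' :=
  hZ hW hC hS hO hP hF

/-- **THE TOP OF THE NODE `OpsUC865`.** -/
theorem opsUC_of865 (hX : IwSysExistsUC865 K') (hE : OpsEigUC865 K') (hR : OpsRelUC865 K')
    (hM : OpsCommUC865 K') (hP : OpsPerUC865 K') (hA : OpsAdjUC865 K')
    (hS : OpsSigUC865 K') (hL : OpsLinkUC865 K') (hB : BadOpUC865 K') : OpsUC865 K' := by
  intro ℓ hℓ hcplx Φ hΦ U hU hst g hg
  have hs : IsSetupU865 ℓ Φ U := ⟨hℓ, hcplx, hΦ, hU⟩
  obtain ⟨Hs, ω, hsys⟩ := hX ℓ Φ U hs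
  obtain ⟨Hg, hdbl, hBe, hBc⟩ := hB ℓ Φ U hs g hg
  refine ⟨Hs, ω, Hg, ?_⟩
  exact
    { S_eig := fun j ψ C h => (hE ℓ Φ U hs Hs ω hsys j ψ C h).1
      ρ_eig := fun j ψ C h => (hE ℓ Φ U hs Hs ω hsys j ψ C h).2
      B_eig := hBe
      S_quad := fun j ψ h x => (hR ℓ Φ U hs Hs ω hsys j ψ h x).1
      ρ_central := fun j ψ h x => (hR ℓ Φ U hs Hs ω hsys j ψ h x).2
      comm_SS := fun j j' h1 h2 h3 ψ _ x => (hM ℓ Φ U hs Hs ω hsys j j' h1 h2 h3 ψ x).1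
      comm_Sρ := fun j j' h1 h2 h3 ψ _ x => (hM ℓ Φ U hs Hs ω hsys j j' h1 h2 h3 ψ x).2.1
      comm_ρρ := fun j j' h1 h2 h3 ψ _ x => (hM ℓ Φ U hs Hs ω hsys j j' h1 h2 h3 ψ x).2.2
      per_S := fun j ψ h x => (hP ℓ Φ U hs Hs ω hsys j ψ h x).1
      per_ρ := fun j ψ h x => (hP ℓ Φ U hs Hs ω hsys j ψ h x).2
      B_S := fun j ψ h x => (hBc Hs ω hsys j ψ h x).1
      B_ρ := fun j ψ h x => (hBc Hs ω hsys j ψ h x).2
      S_adj := fun j ψ χ h1 h2 => (hA ℓ Φ U hs Hs ω hsys j ψ χ h1 h2).1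
      ρ_iso := fun j ψ χ h1 h2 => (hA ℓ Φ U hs Hs ω hsys j ψ χ h1 h2).2
      σ_S := fun j ψ h x => (hS ℓ Φ U hs hst Hs ω hsys j ψ h x).1
      σ_ρ := fun j ψ h x => (hS ℓ Φ U hs hst Hs ω hsys j ψ h x).2
      dbl := hdbl
      iwsys := (hL ℓ Φ U hs Hs ω hsys).1
      unif := (hL ℓ Φ U hs Hs ω hsys).2 }

/-- **THE TOP OF THE NODE `UpBasisUC`** (core form): the bridge to the core forms of the leaves
of helper561. -/
theorem upBasisUC_of865 (hStf : SU736.StfUC K') (hB : BlocksUC865 K')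
    (hCh : H561.ChangeC561 K') (hA : H561.AtomsC561) (hS : SigmaUC865 K')
    (hIw : IwSysUp865 K') : SU736.UpBasisUC K' := by
  classical
  intro ℓ hℓp hcplx Φ hΦ U hU hst g hg
  obtain ⟨e₀, 𝔅, hBl⟩ := hB ℓ hℓp hcplx Φ hΦ U hU hst g hg
  obtain ⟨σC, -, hσ2, hσ3⟩ := hS ℓ hℓp hcplx Φ hΦ U hU hst
  obtain ⟨⟨H, hH⟩, ⟨z, hz⟩⟩ := hIw (U.o 0)
  obtain ⟨i₀, hi₀⟩ := hBl.phi
  -- abbreviations
  set μ := U.R'.μ with hμ
  set F := U.R'.F with hF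
  set q : ℝ := ((Ideal.absNorm (U.o 0).asIdeal : ℕ) : ℝ) with hq
  have hℓ0 : 0 < ℓ := hℓp.pos
  have hq1 : 1 ≤ q := by
    have h0 : Ideal.absNorm (U.o 0).asIdeal ≠ 0 := by
      rw [Ne, Ideal.absNorm_eq_zero_iff]
      exact (U.o 0).ne_bot
    have : 1 ≤ Ideal.absNorm (U.o 0).asIdeal := Nat.one_le_iff_ne_zero.2 h0
    rw [hq]
    exact_mod_cast this
  have hsq1 : 1 ≤ Real.sqrt q := by
    rw [← Real.sqrt_one]
    exact Real.sqrt_le_sqrt hq1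
  -- the atoms of the blocks
  have hat : ∀ i : 𝔅.ι, ∃ (Q : Matrix (Fin (𝔅.n i)) (Fin (𝔅.n i)) ℂ)
      (t b l : Fin (𝔅.n i) → ℂ),
      Q ∈ Matrix.unitaryGroup (Fin (𝔅.n i)) ℂ ∧
      (∀ a, t a = 0 ∨ t a = (Qᴴ * (𝔅.B i * 𝔅.A i) * Q) a a) ∧
      (∀ a, IsRegParam (Real.sqrt q) (b a) (l a)) ∧
      ∀ (k : ℤ) (m : ℕ),
        Matrix.trace (𝔅.B i * (𝔅.ρ i 0 * 𝔅.ρ i 0) ^ k
            * (((Real.sqrt q : ℝ) : ℂ)⁻¹ • (𝔅.S i 0 * 𝔅.ρ i 0)) ^ m * 𝔅.A i)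
          = ∑ a, t a * b a ^ k * l a ^ m :=
    fun i => hA (𝔅.n i) ℓ q (𝔅.A i) (𝔅.B i) (𝔅.S i) (𝔅.ρ i) hℓ0 hq1 (hBl.iw i)
  choose Q t bb ll hQ ht hreg htr using hat
  -- the changed sequence (used for the summability only)
  have hnorm : ∀ (i : 𝔅.ι) (a : Fin (𝔅.n i)),
      T5.innerD μ F (e₀ (𝔅.idx i a)) (e₀ (𝔅.idx i a)) = 1 := by
    intro i a
    have := (hBl.basis i).orth a a
    rwa [if_pos rfl] at this
  obtain ⟨e', hONB', -, -, hdiag'⟩ := hCh U.s (U.𝔑 g) μ F U.R'.r hU.frame'.frame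
    hU.frame'.ray (hU.aut g hg) e₀ hBl.onb 𝔅.ι 𝔅.n 𝔅.idx hBl.inj hnorm Q hQ
  -- the index bookkeeping
  set f : (Σ i, Fin (𝔅.n i)) → ℕ := fun p => 𝔅.idx p.1 p.2 with hf
  have hfinj : Function.Injective f := by
    rintro ⟨i, a⟩ ⟨i', a'⟩ h
    exact hBl.inj i a i' a' h
  set dat : ℕ → Option (Σ i, Fin (𝔅.n i)) := Function.partialInv f with hdat
  have hdat_some : ∀ (i : 𝔅.ι) (a : Fin (𝔅.n i)), dat (𝔅.idx i a) = some ⟨i, a⟩ :=
    fun i a => Function.partialInv_left hfinj ⟨i, a⟩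
  have hdat_inv : ∀ (j : ℕ) (p : Σ i, Fin (𝔅.n i)), dat j = some p → 𝔅.idx p.1 p.2 = j :=
    fun j p h => (hfinj.isPartialInv p j).1 h
  have hidx_inj : ∀ i : 𝔅.ι, Function.Injective (𝔅.idx i) := by
    intro i a a' h
    have := hfinj (a₁ := ⟨i, a⟩) (a₂ := ⟨i, a'⟩) h
    exact eq_of_heq (Sigma.mk.inj this).2
  -- the data
  set I : Set ℕ := Set.range f with hI
  set blk : ℕ → Finset ℕ := fun j =>
    (dat j).elim ∅ (fun p => Finset.univ.image (𝔅.idx p.1)) with hblk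
  set C : ℕ → EigData K' := fun j => (dat j).elim (𝔅.C i₀) (fun p => 𝔅.C p.1) with hC
  set y : ℕ → ℂ := fun j => (dat j).elim 0 (fun p => t p.1 p.2) with hy
  set b : ℕ → ℂ := fun j => (dat j).elim 1 (fun p => bb p.1 p.2) with hb
  set l : ℕ → ℂ := fun j => (dat j).elim 1 (fun p => ll p.1 p.2) with hl
  set J : Finset ℕ := Finset.univ.image (𝔅.idx i₀) with hJ
  have hnone : ∀ j, j ∉ I → dat j = none := by
    intro j hj
    cases hd : dat j with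
    | none => rfl
    | some p => exact absurd ⟨p, hdat_inv j p hd⟩ hj
  have hblk_idx : ∀ (i : 𝔅.ι) (a : Fin (𝔅.n i)),
      blk (𝔅.idx i a) = Finset.univ.image (𝔅.idx i) := by
    intro i a
    show (dat (𝔅.idx i a)).elim ∅ (fun p => Finset.univ.image (𝔅.idx p.1)) = _
    rw [hdat_some]
    rfl
  have hC_idx : ∀ (i : 𝔅.ι) (a : Fin (𝔅.n i)), C (𝔅.idx i a) = 𝔅.C i := by
    intro i a
    show (dat (𝔅.idx i a)).elim (𝔅.C i₀) (fun p => 𝔅.C p.1) = _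
    rw [hdat_some]
    rfl
  have hy_idx : ∀ (i : 𝔅.ι) (a : Fin (𝔅.n i)), y (𝔅.idx i a) = t i a := by
    intro i a
    show (dat (𝔅.idx i a)).elim 0 (fun p => t p.1 p.2) = _
    rw [hdat_some]
    rfl
  have hb_idx : ∀ (i : 𝔅.ι) (a : Fin (𝔅.n i)), b (𝔅.idx i a) = bb i a := by
    intro i a
    show (dat (𝔅.idx i a)).elim 1 (fun p => bb p.1 p.2) = _
    rw [hdat_some]
    rfl
  have hl_idx : ∀ (i : 𝔅.ι) (a : Fin (𝔅.n i)), l (𝔅.idx i a) = ll i a := by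
    intro i a
    show (dat (𝔅.idx i a)).elim 1 (fun p => ll p.1 p.2) = _
    rw [hdat_some]
    rfl
  have hy_out : ∀ j, j ∉ I → y j = 0 := by
    intro j hj
    show (dat j).elim 0 (fun p => t p.1 p.2) = 0
    rw [hnone j hj]
    rfl
  -- the test functions
  have htest : ∀ (X : List (Gen K')) (k : ℤ) (m : ℕ), (∀ x ∈ X, x.Out U.S') →
      T5.IsTestFn (U.𝔑 g) T5.trivType (U.φ' g X k m) :=
    fun X k m hX => (hU.ekprod_up g X k m hg hX).1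
  have hnil : ∀ x ∈ ([] : List (Gen K')), x.Out U.S' := fun x hx => absurd hx (List.not_mem_nil)
  -- the sum of the diagonal coefficients over a block is a trace
  have hblock : ∀ (i : 𝔅.ι) (X : List (Gen K')) (k : ℤ) (m : ℕ), (∀ x ∈ X, x.Out U.S') →
      ∑ a, T5.diagCoeff U.s μ F (U.φ' g X k m) (e₀ (𝔅.idx i a))
        = ∑ a, wordEv X (𝔅.C i) * t i a * bb i a ^ k * ll i a ^ m := by
    intro i X k m hX
    have h1 : ∀ a, T5.diagCoeff U.s μ F (U.φ' g X k m) (e₀ (𝔅.idx i a))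
        = wordEv X (𝔅.C i) * (𝔅.B i * (𝔅.ρ i 0 * 𝔅.ρ i 0) ^ k
            * (((Real.sqrt q : ℝ) : ℂ)⁻¹ • (𝔅.S i 0 * 𝔅.ρ i 0)) ^ m * 𝔅.A i) a a :=
      fun a => hBl.coeff X hX k m i a a
    rw [Finset.sum_congr rfl fun a _ => h1 a, ← Finset.mul_sum]
    have h2 : ∑ a, (𝔅.B i * (𝔅.ρ i 0 * 𝔅.ρ i 0) ^ k
        * (((Real.sqrt q : ℝ) : ℂ)⁻¹ • (𝔅.S i 0 * 𝔅.ρ i 0)) ^ m * 𝔅.A i) a a
        = ∑ a, t i a * bb i a ^ k * ll i a ^ m := htr i k m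
    rw [h2, Finset.mul_sum]
    refine Finset.sum_congr rfl fun a _ => ?_
    ring
  -- the class of `Φ`
  have hmemS := hU.mem_S'
  have heig0 : ∀ a : Fin (𝔅.n i₀),
      IsEigFn U.𝔑₀ U.R'.r ℓ U.o (e₀ (𝔅.idx i₀ a)) (eigOf Φ) :=
    fun a => isEigFn_congr865 hmemS ((hBl.basis i₀).eig a) hi₀
  have heigσ : ∀ a : Fin (𝔅.n i₀),
      IsEigFn U.𝔑₀ U.R'.r ℓ U.o (T5.Rsig U.s (e₀ (𝔅.idx i₀ a))) (eigOf Φ) :=
    fun a => isEigFn_congr865 hmemS (hσ2 _ _ (heig0 a)) hσ3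
  refine ⟨e₀, I, blk, C, b, l, y, Real.sqrt q, J, ?_⟩
  refine
    { onb := hBl.onb
      zero_out := ?_
      y_out := hy_out
      mem_blk := ?_
      blk_sub := ?_
      block := ?_
      summ := ?_
      unit := ?_
      reg := ?_
      cls_mem := ?_
      cls_agree := ?_
      cls_basis := ?_
      cls_trace := ?_ }
  · -- zero_out
    intro j hj X k m hX
    refine hBl.off X hX k m j fun i a h => hj ⟨⟨i, a⟩, h⟩
  · -- mem_blk
    rintro j ⟨⟨i, a⟩, rfl⟩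
    show 𝔅.idx i a ∈ blk (𝔅.idx i a)
    rw [hblk_idx]
    exact Finset.mem_image_of_mem _ (Finset.mem_univ a)
  · -- blk_sub
    rintro j ⟨⟨i, a⟩, rfl⟩ j' hj'
    have hj'' : j' ∈ blk (𝔅.idx i a) := hj'
    rw [hblk_idx, Finset.mem_image] at hj''
    obtain ⟨a', -, rfl⟩ := hj''
    refine ⟨⟨⟨i, a'⟩, rfl⟩, ?_⟩
    show blk (𝔅.idx i a') = blk (𝔅.idx i a)
    rw [hblk_idx, hblk_idx]
  · -- block
    rintro j ⟨⟨i, a⟩, rfl⟩ X k m hX
    show ∑ j' ∈ blk (𝔅.idx i a), T5.diagCoeff U.s μ F (U.φ' g X k m) (e₀ j')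
      = ∑ j' ∈ blk (𝔅.idx i a), wordEv X (C j') * y j' * b j' ^ k * l j' ^ m
    rw [hblk_idx, Finset.sum_image fun x _ x' _ h => hidx_inj i h,
      Finset.sum_image fun x _ x' _ h => hidx_inj i h, hblock i X k m hX]
    refine Finset.sum_congr rfl fun a' _ => ?_
    rw [hC_idx, hy_idx, hb_idx, hl_idx]
  · -- summ
    have hs1 : Summable fun j => ‖T5.diagCoeff U.s μ F (U.φ' g [] 0 0) (e' j)‖ := by
      obtain ⟨-, φ₁, φ₂, t₁, t₂, k₁, k₁', k₂, k₂', hconv⟩ := hU.ekprod_up g [] 0 0 hg hnil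
      rw [hconv]
      exact ((hStf U.s U.l U.k (U.𝔑 g) (hU.level_ne g hg) hU.cyc U.R'.μ U.R'.F U.R'.r
        hU.frame'.frame hU.frame'.ray (hU.aut g hg) e' hONB' φ₁ φ₂ t₁ t₂ k₁ k₁' k₂
        k₂').1).norm
    refine Summable.of_nonneg_of_le (fun j => norm_nonneg _) (fun j => ?_) hs1
    by_cases hj : j ∈ I
    · obtain ⟨⟨i, a⟩, rfl⟩ := hj
      show ‖y (𝔅.idx i a)‖ ≤ ‖T5.diagCoeff U.s μ F (U.φ' g [] 0 0) (e' (𝔅.idx i a))‖
      rw [hy_idx]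
      rcases ht i a with h0 | h1
      · rw [h0, norm_zero]
        exact norm_nonneg _
      · refine le_of_eq ?_
        rw [h1, hdiag' (U.φ' g [] 0 0) (htest [] 0 0 hnil) i a, conj_diag865]
        refine congrArg _ (Finset.sum_congr rfl fun b' _ => Finset.sum_congr rfl fun c' _ => ?_)
        have := hBl.coeff [] hnil 0 0 i b' c'
        rw [wordEv_nil865, one_mul, zpow_zero, pow_zero, mul_one, mul_one] at this
        rw [this]
    · rw [hy_out j hj, norm_zero]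
      exact norm_nonneg _
  · -- unit
    intro j
    show ((dat j).elim (𝔅.C i₀) (fun p => 𝔅.C p.1)).IsUnitaryOut U.S'
    cases dat j with
    | none => exact hBl.unitary i₀
    | some p => exact hBl.unitary p.1
  · -- reg
    intro j
    show IsRegParam (Real.sqrt q) ((dat j).elim 1 (fun p => bb p.1 p.2))
      ((dat j).elim 1 (fun p => ll p.1 p.2))
    cases dat j with
    | none =>
      show IsRegParam (Real.sqrt q) 1 1
      refine ⟨norm_one, ?_, Or.inl norm_one⟩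
      rw [norm_one]
      exact hsq1
    | some p => exact hreg p.1 p.2
  · -- cls_mem
    intro j hagree hyj
    have hjI : j ∈ I := by
      by_contra hj
      exact hyj (hy_out j hj)
    obtain ⟨⟨i, a⟩, rfl⟩ := hjI
    have hagree' : (C (𝔅.idx i a)).AgreeOut U.S' (eigOf Φ) := hagree
    rw [hC_idx] at hagree'
    have hii : i = i₀ := hBl.distinct i i₀ (agreeOut_trans865 hagree' (agreeOut_symm865 hi₀))
    subst hii
    exact Finset.mem_image_of_mem _ (Finset.mem_univ a)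
  · -- cls_agree
    intro j hj
    rw [hJ, Finset.mem_image] at hj
    obtain ⟨a, -, rfl⟩ := hj
    show (C (𝔅.idx i₀ a)).AgreeOut U.S' (eigOf Φ)
    rw [hC_idx]
    exact hi₀
  · -- cls_basis
    refine ⟨?_, ?_, ?_, ?_⟩
    · intro j hj
      rw [hJ, Finset.mem_image] at hj
      obtain ⟨a, -, rfl⟩ := hj
      exact heig0 a
    · intro i hi j hj hij
      rw [hJ, Finset.mem_image] at hi hj
      obtain ⟨a, -, rfl⟩ := hi
      obtain ⟨a', -, rfl⟩ := hj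
      have haa : a ≠ a' := fun h => hij (by rw [h])
      have := (hBl.basis i₀).orth a a'
      rwa [if_neg haa] at this
    · intro j hj
      rw [hJ, Finset.mem_image] at hj
      obtain ⟨a, -, rfl⟩ := hj
      exact hnorm i₀ a
    · intro ψ hψ
      obtain ⟨c, hc⟩ := (hBl.basis i₀).span ψ (eigOf Φ) hψ (agreeOut_symm865 hi₀)
      refine ⟨fun j => ∑ a' : Fin (𝔅.n i₀), if 𝔅.idx i₀ a' = j then c a' else 0, fun x => ?_⟩
      rw [hc x, hJ, Finset.sum_image fun x _ x' _ h => hidx_inj i₀ h]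
      refine Finset.sum_congr rfl fun a _ => ?_
      congr 1
      show c a = ∑ a' : Fin (𝔅.n i₀), if 𝔅.idx i₀ a' = 𝔅.idx i₀ a then c a' else 0
      rw [Finset.sum_eq_single a]
      · rw [if_pos rfl]
      · intro a' _ ha'
        rw [if_neg fun h => ha' (hidx_inj i₀ h)]
      · intro h
        exact absurd (Finset.mem_univ a) h
  · -- cls_trace
    intro Hg hHg
    show ∑ j ∈ J, y j = U.c g (eigOf Φ)
      * ∑ j ∈ J, T5.innerD U.R'.μ U.R'.F (cosetOp Hg (T5.Rsig U.s (e₀ j))) (e₀ j)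
    rw [hJ, Finset.sum_image fun x _ x' _ h => hidx_inj i₀ h,
      Finset.sum_image fun x _ x' _ h => hidx_inj i₀ h, Finset.mul_sum]
    have h1 := hblock i₀ [] 0 0 hnil
    have h2 : ∑ a, y (𝔅.idx i₀ a) = ∑ a, wordEv [] (𝔅.C i₀) * t i₀ a * bb i₀ a ^ (0 : ℤ)
        * ll i₀ a ^ 0 := by
      refine Finset.sum_congr rfl fun a _ => ?_
      rw [hy_idx, wordEv_nil865, one_mul, zpow_zero, pow_zero, mul_one, mul_one]
    rw [h2, ← h1]
    refine Finset.sum_congr rfl fun a _ => ?_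
    -- OP-up for `R(σ) e₀_a`
    have hop := hU.op_up g [] 0 0 hg hnil (T5.Rsig U.s (e₀ (𝔅.idx i₀ a))) (eigOf Φ)
      (heigσ a) Hg H z hHg hH hz
    show T5.innerD μ F (T5.Rconv μ (U.φ' g [] 0 0) (T5.Rsig U.s (e₀ (𝔅.idx i₀ a))))
        (e₀ (𝔅.idx i₀ a))
      = U.c g (eigOf Φ)
        * T5.innerD μ F (cosetOp Hg (T5.Rsig U.s (e₀ (𝔅.idx i₀ a)))) (e₀ (𝔅.idx i₀ a))
    show (∫ x in F, T5.Rconv μ (U.φ' g [] 0 0) (T5.Rsig U.s (e₀ (𝔅.idx i₀ a))) x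
          * conj (e₀ (𝔅.idx i₀ a) x) ∂μ)
      = U.c g (eigOf Φ)
        * ∫ x in F, cosetOp Hg (T5.Rsig U.s (e₀ (𝔅.idx i₀ a))) x
          * conj (e₀ (𝔅.idx i₀ a) x) ∂μ
    rw [← integral_const_mul]
    refine integral_congr_ae (Filter.Eventually.of_forall fun x => ?_)
    show T5.Rconv μ (U.φ' g [] 0 0) (T5.Rsig U.s (e₀ (𝔅.idx i₀ a))) x
        * conj (e₀ (𝔅.idx i₀ a) x)
      = U.c g (eigOf Φ) * (cosetOp Hg (T5.Rsig U.s (e₀ (𝔅.idx i₀ a))) x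
        * conj (e₀ (𝔅.idx i₀ a) x))
    rw [hop x, wordEv_nil865, one_mul, ← mul_assoc]
    congr 2
    show ∑ h ∈ Hg, ((iwOp (U.o 0) H)^[0] (T5.Rsig U.s (e₀ (𝔅.idx i₀ a))))
        (x * h * z ^ (0 : ℤ))
      = ∑ h ∈ Hg, T5.Rsig U.s (e₀ (𝔅.idx i₀ a)) (x * h)
    refine Finset.sum_congr rfl fun h _ => ?_
    rw [zpow_zero, mul_one]
    rfl


/-- **`UpBasisUC` from the leaves.** -/
theorem upBasisUC_of_leaves865 (hStf : SU736.StfUC K') (hCh : H561.ChangeC561 K')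
    (hA : H561.AtomsC561) (hIw : IwSysUp865 K')
    (hZ : BlocksAsmUC865 K') (hW : WSpecUC865 K') (hC : CompleteUC865 K')
    (hS : SigmaUC865 K') (hP : PhiUC865 K') (hF : OffWUC865 K')
    (hX : IwSysExistsUC865 K') (hE : OpsEigUC865 K') (hR : OpsRelUC865 K')
    (hM : OpsCommUC865 K') (hPe : OpsPerUC865 K') (hAd : OpsAdjUC865 K')
    (hSg : OpsSigUC865 K') (hL : OpsLinkUC865 K') (hBd : BadOpUC865 K') :
    SU736.UpBasisUC K' :=
  upBasisUC_of865 hStf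
    (blocksUC_of865 hZ hW hC hS (opsUC_of865 hX hE hR hM hPe hAd hSg hL hBd) hP hF)
    hCh hA hS hIw

end Tops

/-! ## 4. The adapters: the forms of helper561 (typed on `L2Data`) FROM the core forms -/

section Adapters

variable {K K' : Type} [Field K] [NumberField K] [Field K'] [NumberField K'] [Algebra K K']

theorem isClassBasis561_of_U865 {Dt : L2Data K K'} {ℓ : ℕ} {C : EigData K'} {n : ℕ}
    {v : Fin n → G K' → ℂ} (h : IsClassBasisU865 (H29.upOf Dt) ℓ C n v) :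
    IsClassBasis561 Dt ℓ C n v :=
  ⟨h.eig, h.orth, h.span⟩

theorem isClassBasisU_of_561_865 {Dt : L2Data K K'} {ℓ : ℕ} {C : EigData K'} {n : ℕ}
    {v : Fin n → G K' → ℂ} (h : IsClassBasis561 Dt ℓ C n v) :
    IsClassBasisU865 (H29.upOf Dt) ℓ C n v :=
  ⟨h.eig, h.orth, h.span⟩

theorem isBlocks561_of_U865 {ℓ : ℕ} {Φ : HeckeEigensystem K' ℂ} {Dt : L2Data K K'} {g : G K'}
    {e₀ : ℕ → G K' → ℂ} {𝔅 : Blocks561 K'} (h : IsBlocksU865 ℓ Φ (H29.upOf Dt) g e₀ 𝔅) :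
    IsBlocks561 ℓ Φ Dt g e₀ 𝔅 where
  onb := h.onb
  inj := h.inj
  unitary := h.unitary
  distinct := h.distinct
  basis := fun i => isClassBasis561_of_U865 (h.basis i)
  phi := h.phi
  iw := h.iw
  coeff := h.coeff
  off := h.off

theorem isWSpec561_of_U865 {Dt : L2Data K K'} {ℓ : ℕ} {ι : Type} {n : ι → ℕ}
    {C : ι → EigData K'} {v : (i : ι) → Fin (n i) → G K' → ℂ}
    (h : IsWSpecU865 (H29.upOf Dt) ℓ ι n C v) : IsWSpec561 Dt ℓ ι n C v where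
  countable := h.countable
  unitary := h.unitary
  distinct := h.distinct
  basis := fun i => isClassBasis561_of_U865 (h.basis i)
  orth := h.orth
  complete := h.complete
  cover := h.cover

theorem isWSpecU_of_561_865 {Dt : L2Data K K'} {ℓ : ℕ} {ι : Type} {n : ι → ℕ}
    {C : ι → EigData K'} {v : (i : ι) → Fin (n i) → G K' → ℂ}
    (h : IsWSpec561 Dt ℓ ι n C v) : IsWSpecU865 (H29.upOf Dt) ℓ ι n C v where
  countable := h.countable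
  unitary := h.unitary
  distinct := h.distinct
  basis := fun i => isClassBasisU_of_561_865 (h.basis i)
  orth := h.orth
  complete := h.complete
  cover := h.cover

theorem isWOps561_of_U865 {Dt : L2Data K K'} {ℓ : ℕ} {g : G K'} {Hs : ℕ → Finset (G K')}
    {ω : ℕ → G K'} {Hg : Finset (G K')} (h : IsWOpsU865 (H29.upOf Dt) ℓ g Hs ω Hg) :
    IsWOps561 Dt ℓ g Hs ω Hg where
  S_eig := h.S_eig
  ρ_eig := h.ρ_eig
  B_eig := h.B_eig
  S_quad := h.S_quad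
  ρ_central := h.ρ_central
  comm_SS := h.comm_SS
  comm_Sρ := h.comm_Sρ
  comm_ρρ := h.comm_ρρ
  per_S := h.per_S
  per_ρ := h.per_ρ
  B_S := h.B_S
  B_ρ := h.B_ρ
  S_adj := h.S_adj
  ρ_iso := h.ρ_iso
  σ_S := h.σ_S
  σ_ρ := h.σ_ρ
  dbl := h.dbl
  iwsys := h.iwsys
  unif := h.unif

theorem isIwSys561_of_U865 {Dt : L2Data K K'} {Hs : ℕ → Finset (G K')} {ω : ℕ → G K'}
    (h : IsIwSysU865 (H29.upOf Dt) Hs ω) : IsIwSys561 Dt Hs ω :=
  ⟨h.ω_local, h.ω_comp, h.Hs_card, h.Hs_local, h.Hs_comp, h.Hs_inj⟩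

theorem isIwSysU_of_561_865 {Dt : L2Data K K'} {Hs : ℕ → Finset (G K')} {ω : ℕ → G K'}
    (h : IsIwSys561 Dt Hs ω) : IsIwSysU865 (H29.upOf Dt) Hs ω :=
  ⟨h.ω_local, h.ω_comp, h.Hs_card, h.Hs_local, h.Hs_comp, h.Hs_inj⟩

theorem isSetupU_of_561_865 {ℓ : ℕ} {Φ : HeckeEigensystem K' ℂ} {Dt : L2Data K K'}
    (h : IsSetup561 ℓ Φ Dt) : IsSetupU865 ℓ Φ (H29.upOf Dt) :=
  ⟨h.cyc.prime, H29.totCplx_of_base h.cplx, h.cusp, H29.isUpData_upOf h.data⟩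

/-- `BaseStable561` (the level group) gives `H29.BaseStableU` (the other fields of
`T5.AutPreserves` do not depend on the level). -/
theorem baseStableU_of_561_865 {ℓ : ℕ} {Φ : HeckeEigensystem K' ℂ} {Dt : L2Data K K'}
    (hDt : IsL2Data ℓ Φ Dt) (h : BaseStable561 Dt) : H29.BaseStableU (H29.upOf Dt) :=
  let a := (hDt.comp 1 (H29.isBad_one Dt)).aut
  { left_inverse := a.left_inverse
    right_inverse := a.right_inverse
    rat := a.rat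
    cont := a.cont
    measure := a.measure
    ray := a.ray
    slab := a.slab
    level := h
    arch := a.arch }

theorem blocksC561_of_U865 (h : BlocksUC865 K') : BlocksC561 K K' := by
  intro ℓ hcyc _ hcplx Φ hΦ _ Dt hDt hst g hg
  obtain ⟨e₀, 𝔅, hB⟩ := h ℓ hcyc.prime (H29.totCplx_of_base hcplx) Φ hΦ (H29.upOf Dt)
    (H29.isUpData_upOf hDt) (baseStableU_of_561_865 hDt hst) g hg
  exact ⟨e₀, 𝔅, isBlocks561_of_U865 hB⟩

theorem wSpecC561_of_U865 (h : WSpecUC865 K') : WSpecC561 K K' := by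
  intro ℓ hcyc _ hcplx Φ hΦ _ Dt hDt
  obtain ⟨ι, n, C, v, hW⟩ := h ℓ hcyc.prime (H29.totCplx_of_base hcplx) Φ hΦ (H29.upOf Dt)
    (H29.isUpData_upOf hDt)
  exact ⟨ι, n, C, v, isWSpec561_of_U865 hW⟩

theorem completeC561_of_U865 (h : CompleteUC865 K') : CompleteC561 K K' := by
  intro ℓ hcyc _ hcplx Φ hΦ _ Dt hDt g hg ι n C v hW
  exact h ℓ hcyc.prime (H29.totCplx_of_base hcplx) Φ hΦ (H29.upOf Dt)
    (H29.isUpData_upOf hDt) g hg ι n C v (isWSpecU_of_561_865 hW)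

theorem sigmaC561_of_U865 (h : SigmaUC865 K') : SigmaC561 K K' := by
  intro ℓ hcyc _ hcplx Φ hΦ _ Dt hDt hst
  exact h ℓ hcyc.prime (H29.totCplx_of_base hcplx) Φ hΦ (H29.upOf Dt)
    (H29.isUpData_upOf hDt) (baseStableU_of_561_865 hDt hst)

theorem opsC561_of_U865 (h : OpsUC865 K') : OpsC561 K K' := by
  intro ℓ hcyc _ hcplx Φ hΦ _ Dt hDt hst g hg
  obtain ⟨Hs, ω, Hg, hO⟩ := h ℓ hcyc.prime (H29.totCplx_of_base hcplx) Φ hΦ (H29.upOf Dt)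
    (H29.isUpData_upOf hDt) (baseStableU_of_561_865 hDt hst) g hg
  exact ⟨Hs, ω, Hg, isWOps561_of_U865 hO⟩

theorem phiC561_of_U865 (h : PhiUC865 K') : PhiC561 K K' := by
  intro ℓ hcyc _ hcplx Φ hΦ _ Dt hDt
  exact h ℓ hcyc.prime (H29.totCplx_of_base hcplx) Φ hΦ (H29.upOf Dt) (H29.isUpData_upOf hDt)

theorem offWC561_of_U865 (h : OffWUC865 K') : OffWC561 K K' := by
  intro ℓ hcyc _ hcplx Φ hΦ _ Dt hDt g hg ι n C v hW
  exact h ℓ hcyc.prime (H29.totCplx_of_base hcplx) Φ hΦ (H29.upOf Dt)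
    (H29.isUpData_upOf hDt) g hg ι n C v (isWSpecU_of_561_865 hW)

theorem iwSysExistsC561_of_U865 (h : IwSysExistsUC865 K') : IwSysExistsC561 K K' := by
  intro ℓ Φ Dt hs
  obtain ⟨Hs, ω, hsys⟩ := h ℓ Φ (H29.upOf Dt) (isSetupU_of_561_865 hs)
  exact ⟨Hs, ω, isIwSys561_of_U865 hsys⟩

theorem opsEigC561_of_U865 (h : OpsEigUC865 K') : OpsEigC561 K K' :=
  fun ℓ Φ Dt hs Hs ω hsys =>
    h ℓ Φ (H29.upOf Dt) (isSetupU_of_561_865 hs) Hs ω (isIwSysU_of_561_865 hsys)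

theorem opsRelC561_of_U865 (h : OpsRelUC865 K') : OpsRelC561 K K' :=
  fun ℓ Φ Dt hs Hs ω hsys =>
    h ℓ Φ (H29.upOf Dt) (isSetupU_of_561_865 hs) Hs ω (isIwSysU_of_561_865 hsys)

theorem opsCommC561_of_U865 (h : OpsCommUC865 K') : OpsCommC561 K K' :=
  fun ℓ Φ Dt hs Hs ω hsys =>
    h ℓ Φ (H29.upOf Dt) (isSetupU_of_561_865 hs) Hs ω (isIwSysU_of_561_865 hsys)

theorem opsPerC561_of_U865 (h : OpsPerUC865 K') : OpsPerC561 K K' :=
  fun ℓ Φ Dt hs Hs ω hsys =>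
    h ℓ Φ (H29.upOf Dt) (isSetupU_of_561_865 hs) Hs ω (isIwSysU_of_561_865 hsys)

theorem opsAdjC561_of_U865 (h : OpsAdjUC865 K') : OpsAdjC561 K K' :=
  fun ℓ Φ Dt hs Hs ω hsys =>
    h ℓ Φ (H29.upOf Dt) (isSetupU_of_561_865 hs) Hs ω (isIwSysU_of_561_865 hsys)

theorem opsSigC561_of_U865 (h : OpsSigUC865 K') : OpsSigC561 K K' :=
  fun ℓ Φ Dt hs hst Hs ω hsys =>
    h ℓ Φ (H29.upOf Dt) (isSetupU_of_561_865 hs) (baseStableU_of_561_865 hs.data hst) Hs ω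
      (isIwSysU_of_561_865 hsys)

theorem opsLinkC561_of_U865 (h : OpsLinkUC865 K') : OpsLinkC561 K K' :=
  fun ℓ Φ Dt hs Hs ω hsys =>
    h ℓ Φ (H29.upOf Dt) (isSetupU_of_561_865 hs) Hs ω (isIwSysU_of_561_865 hsys)

theorem badOpC561_of_U865 (h : BadOpUC865 K') : BadOpC561 K K' := by
  intro ℓ Φ Dt hs g hg
  obtain ⟨Hg, h1, h2, h3⟩ := h ℓ Φ (H29.upOf Dt) (isSetupU_of_561_865 hs) g hg
  exact ⟨Hg, h1, h2, fun Hs ω hsys => h3 Hs ω (isIwSysU_of_561_865 hsys)⟩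

end Adapters

/-! ## Appendix: the equation lemmas of the definitions are realised HERE -/

theorem eqns_realised_upBasisU865 : True := by
  have _a0 := @BlocksUC865.eq_1
  have _b0 := @BlocksUC865.eq_def
  have _c0 := @BlocksUC865.eq_unfold
  have _a1 := @WSpecUC865.eq_1
  have _b1 := @WSpecUC865.eq_def
  have _c1 := @WSpecUC865.eq_unfold
  have _a2 := @CompleteUC865.eq_1
  have _b2 := @CompleteUC865.eq_def
  have _c2 := @CompleteUC865.eq_unfold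
  have _a3 := @SigmaUC865.eq_1
  have _b3 := @SigmaUC865.eq_def
  have _c3 := @SigmaUC865.eq_unfold
  have _a4 := @OpsUC865.eq_1
  have _b4 := @OpsUC865.eq_def
  have _c4 := @OpsUC865.eq_unfold
  have _a5 := @PhiUC865.eq_1
  have _b5 := @PhiUC865.eq_def
  have _c5 := @PhiUC865.eq_unfold
  have _a6 := @OffWUC865.eq_1
  have _b6 := @OffWUC865.eq_def
  have _c6 := @OffWUC865.eq_unfold
  have _a7 := @BlocksAsmUC865.eq_1
  have _b7 := @BlocksAsmUC865.eq_def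
  have _c7 := @BlocksAsmUC865.eq_unfold
  have _a8 := @IwSysExistsUC865.eq_1
  have _b8 := @IwSysExistsUC865.eq_def
  have _c8 := @IwSysExistsUC865.eq_unfold
  have _a9 := @OpsEigUC865.eq_1
  have _b9 := @OpsEigUC865.eq_def
  have _c9 := @OpsEigUC865.eq_unfold
  have _a10 := @OpsRelUC865.eq_1
  have _b10 := @OpsRelUC865.eq_def
  have _c10 := @OpsRelUC865.eq_unfold
  have _a11 := @OpsCommUC865.eq_1
  have _b11 := @OpsCommUC865.eq_def
  have _c11 := @OpsCommUC865.eq_unfold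
  have _a12 := @OpsPerUC865.eq_1
  have _b12 := @OpsPerUC865.eq_def
  have _c12 := @OpsPerUC865.eq_unfold
  have _a13 := @OpsAdjUC865.eq_1
  have _b13 := @OpsAdjUC865.eq_def
  have _c13 := @OpsAdjUC865.eq_unfold
  have _a14 := @OpsSigUC865.eq_1
  have _b14 := @OpsSigUC865.eq_def
  have _c14 := @OpsSigUC865.eq_unfold
  have _a15 := @OpsLinkUC865.eq_1
  have _b15 := @OpsLinkUC865.eq_def
  have _c15 := @OpsLinkUC865.eq_unfold
  have _a16 := @BadOpUC865.eq_1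
  have _b16 := @BadOpUC865.eq_def
  have _c16 := @BadOpUC865.eq_unfold
  trivial

end Fermat.Agent.LT.T7.H865

end
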