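import Fermat.Agent.LT.T7.H865.CompleteU
import Fermat.Agent.LT.T7.H76.CuspForm
import Fermat.Agent.LT.T7.H190.SubSeqClosed
import Fermat.Agent.LT.T7.H863.WSub

/-!
# Row LT, tower T7: LEAF T7.L2.2.B2 `H561.CompleteC561` (row 2274) and its core form
# `H865.CompleteUC865` -- CLOSED, UNCONDITIONAL (helper865)

OFF-MAIN.  Nothing assumed, no hole.  ONE closure: `T7/H865/CompleteU.lean` + the closed leaves
`cuspFormC76` (helper76@8c596d065, sha256 bd5e5ce3), `subSeqC190` (helper190@6d810ecca,
SubSeqClosed 582bf9a6), `wSubC_863` (helper863@3a027450f, WSub f64a32cd); byte-identical copies.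

    completeUC865_closed   K'   : H865.CompleteUC865 K'
    completeC561_closed865 K K' : H561.CompleteC561 K K'
-/

set_option autoImplicit false

namespace Fermat.Agent.LT.T7.H865

open Fermat.Agent.LT.T7

/-- **LEAF T7.L2.2c.B2 `CompleteUC865`**, VERBATIM, UNCONDITIONAL. -/
theorem completeUC865_closed (K' : Type) [Field K'] [NumberField K'] : CompleteUC865 K' :=
  completeUC_of865 (H76.cuspFormC76 K') (H863.wSubC_863 K') (H190.subSeqC190 K')

/-- **LEAF T7.L2.2.B2 `H561.CompleteC561`**, VERBATIM, UNCONDITIONAL. -/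
theorem completeC561_closed865 (K K' : Type) [Field K] [NumberField K] [Field K']
    [NumberField K'] [Algebra K K'] : H561.CompleteC561 K K' :=
  completeC561_of_U865 (completeUC865_closed K')

end Fermat.Agent.LT.T7.H865
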