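import Mathlib
import Fermat.Agent.LT.T7.H193.ProjSpec

/-!
# Row LT, tower T7, node T7.L2.1 `SupplyC`, sub-station PROJ (cut of helper193):
# LEAF PROJ.10 = T7.L2.1.P12 `TorAvgWC`, VERBATIM (helper865, registry row 2147)

OFF-MAIN.  Against `LT/T7/H193/ProjSpec.lean` (helper193@812840e55, sha256 977a85e3),
byte-identical copy.  Imports: Mathlib + the spec closure only.  Nothing assumed, no hole.

    torAvgWC865 K : H193.TorAvgWC K

The archimedean mean `torAvg a D ψ` of a cusp function `ψ` of level `𝔑₀` which is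
Iwahori-invariant along the orbit is an invariant cusp function (`T7.IsWFn`):
* continuity: dominated convergence (`GL₂(𝔸_K)` is second countable, `T1.LocCompC`);
* invariances: `a t` is central;
* positive scalars at `w`: `z = a (Pi.single w (log ρ))` (an element of `GL₂(𝔸_K)` is determined
  by its components) and the field `mean` of `IsTorusData`;
* cuspidality: Fubini on `D' × D`, `D'` of finite measure (`T1.AddFundDomC`).
-/

set_option autoImplicit false
set_option linter.unusedSectionVars false
set_option linter.style.haveILetI false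

open IsDedekindDomain NumberField MeasureTheory
open scoped ComplexConjugate

noncomputable section

namespace Fermat.Agent.LT.T7.H865

open Fermat.Agent.LT.H556 Fermat.Agent.LT.H556.A0 Fermat.Agent.LT Fermat.Agent.LT.T7
open Fermat.Agent.LT.T7.H193

attribute [local instance] Fermat.Agent.LT.T5.instMeasurableSpaceG

variable {K : Type} [Field K] [NumberField K]

/-! ## 1. An element of `GL₂(𝔸_K)` is determined by its components -/

/-- An adele is determined by its components. -/
theorem adele_ext865 {x y : Adl K}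
    (hinf : ∀ w : InfinitePlace K, InfinitePlace.Completion.extensionEmbedding w (x.1 w)
      = InfinitePlace.Completion.extensionEmbedding w (y.1 w))
    (hfin : ∀ v : HeightOneSpectrum (𝓞 K), x.2 v = y.2 v) : x = y := by
  refine Prod.ext ?_ ?_
  · funext w
    exact (InfinitePlace.Completion.extensionEmbedding w).injective (hinf w)
  · exact Subtype.ext (funext hfin)

/-- An element of `GL₂(𝔸_K)` is determined by its components. -/
theorem g_ext865 {g h : G K} (hinf : ∀ w : InfinitePlace K, infComp w g = infComp w h)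
    (hfin : ∀ v : HeightOneSpectrum (𝓞 K), finComp v g = finComp v h) : g = h := by
  apply Units.ext
  ext i j
  refine adele_ext865 (fun w => ?_) (fun v => ?_)
  · exact congrFun (congrFun (hinf w) i) j
  · exact congrFun (congrFun (hfin v) i) j

/-- The components at infinity of an element which is trivial at `w`. -/
theorem infComp_of_triv865 {w : InfinitePlace K} {g : G K} (h : TrivAtInf w g) :
    infComp w g = 1 := by
  ext i j
  show InfinitePlace.Completion.extensionEmbedding w
    (((g : Matrix (Fin 2) (Fin 2) (Adl K)) i j).1 w) = _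
  rw [h i j]
  by_cases hij : i = j
  · subst hij
    simp
  · simp [Matrix.one_apply_ne hij]

/-- A positive scalar at `w` is a value of the homomorphism `a`. -/
theorem posScalar_eq865 {𝔑₀ : Ideal (𝓞 K)} {r : G K} {a : (InfinitePlace K → ℝ) → G K}
    {D : Set (InfinitePlace K → ℝ)} (hD : IsTorusData 𝔑₀ r a D) {w : InfinitePlace K} {z : G K}
    (hz : IsArchPosScalar w z) : ∃ s : InfinitePlace K → ℝ, z = a s := by
  classical
  obtain ⟨hloc, ρ, hρ, hzw⟩ := hz
  refine ⟨Pi.single w (Real.log ρ), g_ext865 (fun w' => ?_) (fun v => ?_)⟩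
  · rw [hD.inf]
    by_cases hw : w' = w
    · subst hw
      rw [Pi.single_eq_same, Real.exp_log hρ]
      exact hzw
    · rw [Pi.single_eq_of_ne hw, Real.exp_zero, infComp_of_triv865 (hloc.1 w' hw)]
      ext i j
      by_cases hij : i = j
      · subst hij
        simp
      · simp [Matrix.one_apply_ne hij, Matrix.diagonal_apply_ne _ hij]
  · have h1 : finComp v z = 1 := hloc.2 v
    have h2 : finComp v (a (Pi.single w (Real.log ρ))) = 1 := hD.fin _ v
    rw [h1, h2]

/-! ## 2. The constant term -/

/-- The matrix of the inverse of `n(x)`. -/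
theorem unip_inv_val865 (n : Adl K → G K)
    (hn : ∀ x : Adl K, (n x : Matrix (Fin 2) (Fin 2) (Adl K)) = !![1, x; 0, 1]) (x : Adl K) :
    (((n x)⁻¹ : G K) : Matrix (Fin 2) (Fin 2) (Adl K)) = !![1, -x; 0, 1] := by
  have h : ((n x : G K) : Matrix (Fin 2) (Fin 2) (Adl K)) * !![1, -x; 0, 1] = 1 := by
    rw [hn x]
    ext i j
    fin_cases i <;> fin_cases j <;> simp [Matrix.mul_apply, Fin.sum_univ_two]
  exact Units.inv_eq_of_mul_eq_one_right h

/-- The unipotent map is continuous. -/
theorem continuous_unip865 (n : Adl K → G K)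
    (hn : ∀ x : Adl K, (n x : Matrix (Fin 2) (Fin 2) (Adl K)) = !![1, x; 0, 1]) :
    Continuous n := by
  rw [Units.continuous_iff]
  constructor
  · have : (fun x => ((n x : G K) : Matrix (Fin 2) (Fin 2) (Adl K)))
        = fun x => !![1, x; 0, 1] := funext hn
    show Continuous (fun x => ((n x : G K) : Matrix (Fin 2) (Fin 2) (Adl K)))
    rw [this]
    refine continuous_matrix (fun i j => ?_)
    fin_cases i <;> fin_cases j <;> simp <;> fun_prop
  · have : (fun x => (((n x)⁻¹ : G K) : Matrix (Fin 2) (Fin 2) (Adl K)))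
        = fun x => !![1, -x; 0, 1] := funext (unip_inv_val865 n hn)
    show Continuous (fun x => (((n x)⁻¹ : G K) : Matrix (Fin 2) (Fin 2) (Adl K)))
    rw [this]
    refine continuous_matrix (fun i j => ?_)
    fin_cases i <;> fin_cases j <;> simp <;> fun_prop

/-- `K` is countable. -/
theorem countable_princ865 : Countable (T1.princ K) := by
  haveI : Countable K :=
    (Module.finBasis ℚ K).equivFun.injective.countable
  unfold T1.princ
  exact (Set.countable_range _).to_subtype

/-- Every fundamental domain of `K` in `𝔸_K` has finite measure. -/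
theorem measure_fundDom_lt_top865 (hFD : T1.AddFundDomC K) :
    letI : MeasurableSpace (Adl K) := borel (Adl K)
    ∀ μ : Measure (Adl K), μ.IsAddHaarMeasure → ∀ D : Set (Adl K),
      IsAddFundamentalDomain ((algebraMap K (Adl K)).toAddMonoidHom.range) D μ → μ D < ⊤ := by
  letI : MeasurableSpace (Adl K) := borel (Adl K)
  haveI : BorelSpace (Adl K) := ⟨rfl⟩
  intro μ hμ D hD
  haveI := hμ
  haveI : Countable (T1.princ K) := countable_princ865
  obtain ⟨D₀, -, hD₀, -, -, hfin⟩ := hFD μ hμ
  have hD' : IsAddFundamentalDomain (T1.princ K) D μ := hD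
  rw [hD'.measure_eq hD₀]
  exact hfin

/-! ## 3. The leaf -/

section Leaf

variable {𝔑₀ : Ideal (𝓞 K)} {r : G K} {a : (InfinitePlace K → ℝ) → G K}
  {D : Set (InfinitePlace K → ℝ)}

theorem volume_lt_top865 (hD : IsTorusData 𝔑₀ r a D) : volume D < ⊤ :=
  hD.bdd.measure_lt_top

theorem torAvg_congr865 {ψ : G K → ℂ} {g g' : G K}
    (h : ∀ t : InfinitePlace K → ℝ, ψ (g * a t) = ψ (g' * a t)) :
    torAvg a D ψ g = torAvg a D ψ g' := by
  unfold torAvg
  congr 1
  exact integral_congr_ae (Filter.Eventually.of_forall fun t => h t)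

/-- Right translation by `h` commutes with `a t`. -/
theorem mul_comm_a865 (hD : IsTorusData 𝔑₀ r a D) (g h : G K) (t : InfinitePlace K → ℝ) :
    g * h * a t = g * a t * h := by
  rw [mul_assoc, ← hD.central t h, ← mul_assoc]

theorem torAvg_bdd865 (hD : IsTorusData 𝔑₀ r a D) {ψ : G K → ℂ}
    (hb : ∃ C : ℝ, ∀ g : G K, ‖ψ g‖ ≤ C) : ∃ C : ℝ, ∀ g : G K, ‖torAvg a D ψ g‖ ≤ C := by
  obtain ⟨C, hC⟩ := hb
  refine ⟨‖(((volume D).toReal : ℝ) : ℂ)⁻¹‖ * (C * (volume D).toReal), fun g => ?_⟩
  unfold torAvg
  rw [norm_mul]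
  refine mul_le_mul_of_nonneg_left ?_ (norm_nonneg _)
  have h := norm_setIntegral_le_of_norm_le_const (μ := volume) (s := D) (C := C)
    (f := fun t => ψ (g * a t)) (volume_lt_top865 hD) (fun t _ => hC _)
  simpa [Measure.real] using h

theorem torAvg_continuous865 (hsc : SecondCountableTopology (G K))
    (hD : IsTorusData 𝔑₀ r a D) {ψ : G K → ℂ} (hc : Continuous ψ)
    (hb : ∃ C : ℝ, ∀ g : G K, ‖ψ g‖ ≤ C) : Continuous (torAvg a D ψ) := by
  obtain ⟨C, hC⟩ := hb
  haveI : IsFiniteMeasure (volume.restrict D) :=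
    isFiniteMeasure_restrict.2 (volume_lt_top865 hD).ne
  unfold torAvg
  refine continuous_const.mul ?_
  refine continuous_of_dominated (bound := fun _ => C) (fun g => ?_) (fun g => ?_)
    (integrable_const C) ?_
  · exact (hc.comp (continuous_const.mul hD.cont)).aestronglyMeasurable
  · exact Filter.Eventually.of_forall fun t => hC _
  · exact Filter.Eventually.of_forall fun t => hc.comp (continuous_id.mul continuous_const)

theorem torAvg_cuspidal865 (hT1 : T1.T1Out K) (hD : IsTorusData 𝔑₀ r a D) {ψ : G K → ℂ}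
    (hc : Continuous ψ) (hb : ∃ C : ℝ, ∀ g : G K, ‖ψ g‖ ≤ C) (hcusp : IsCuspidalFn ψ) :
    IsCuspidalFn (torAvg a D ψ) := by
  letI : MeasurableSpace (Adl K) := borel (Adl K)
  haveI : BorelSpace (Adl K) := ⟨rfl⟩
  intro μ hμ D' hD' n hn g
  obtain ⟨C, hC⟩ := hb
  haveI : IsFiniteMeasure (μ.restrict D') :=
    isFiniteMeasure_restrict.2 (measure_fundDom_lt_top865 hT1.addFundDom μ hμ D' hD').ne
  haveI : IsFiniteMeasure (volume.restrict D) :=
    isFiniteMeasure_restrict.2 (volume_lt_top865 hD).ne
  have hcn : Continuous n := continuous_unip865 n hn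
  have hcont : Continuous (Function.uncurry fun (x : Adl K) (t : InfinitePlace K → ℝ) =>
      ψ (n x * g * a t)) := by
    refine hc.comp ?_
    exact ((hcn.comp continuous_fst).mul continuous_const).mul (hD.cont.comp continuous_snd)
  have hint : Integrable (Function.uncurry fun (x : Adl K) (t : InfinitePlace K → ℝ) =>
      ψ (n x * g * a t)) ((μ.restrict D').prod (volume.restrict D)) :=
    Integrable.of_bound hcont.aestronglyMeasurable C (Filter.Eventually.of_forall fun p => hC _)
  have hswap := integral_integral_swap hint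
  have e1 : ∫ x in D', torAvg a D ψ (n x * g) ∂μ
      = (((volume D).toReal : ℝ) : ℂ)⁻¹ * ∫ x in D', (∫ t in D, ψ (n x * g * a t)) ∂μ := by
    unfold torAvg
    rw [integral_const_mul]
  have e2 : ∫ t in D, (∫ x in D', ψ (n x * g * a t) ∂μ) = 0 := by
    have : ∀ t : InfinitePlace K → ℝ, ∫ x in D', ψ (n x * g * a t) ∂μ = 0 := by
      intro t
      have := hcusp μ hμ D' hD' n hn (g * a t)
      simpa [mul_assoc] using this
    simp [this]
  rw [e1, hswap, e2, mul_zero]

/-- **LEAF PROJ.10 = T7.L2.1.P12 `TorAvgWC`**, VERBATIM. -/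
theorem torAvgWC865 (K : Type) [Field K] [NumberField K] : TorAvgWC K := by
  intro hT1 𝔑₀ r a D hr hD l o ψ hψ hiw
  have hsc : SecondCountableTopology (G K) := hT1.locComp.2.2.2
  refine ⟨⟨torAvg_continuous865 hsc hD hψ.cont hψ.bdd, torAvg_bdd865 hD hψ.bdd, ⟨?_, ?_, ?_, ?_⟩,
    torAvg_cuspidal865 hT1 hD hψ.cont hψ.bdd hψ.cuspidal⟩, ?_, ?_⟩
  · -- left invariance
    intro γ g
    refine torAvg_congr865 fun t => ?_
    rw [mul_assoc]
    exact hψ.aut.left_inv γ (g * a t)
  · -- level
    intro u hu g
    refine torAvg_congr865 fun t => ?_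
    rw [mul_comm_a865 hD]
    exact hψ.aut.level_inv u hu (g * a t)
  · -- compact groups at infinity
    intro w k hk g
    have h1 : torAvg a D ψ (g * k) = torAvg a D ψ g := by
      refine torAvg_congr865 fun t => ?_
      rw [mul_comm_a865 hD, hψ.aut.arch_compact w k hk (g * a t)]
      simp [T5.trivType]
    rw [h1]
    simp [T5.trivType]
  · -- ray
    intro g
    refine torAvg_congr865 fun t => ?_
    rw [mul_comm_a865 hD]
    exact hψ.aut.ray (g * a t)
  · -- positive scalars at one infinite place
    intro w z hz g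
    obtain ⟨s, rfl⟩ := posScalar_eq865 hD hz
    unfold torAvg
    congr 1
    have h := hD.mean ψ hψ.aut hψ.cont g s
    rw [← h]
    refine integral_congr_ae (Filter.Eventually.of_forall fun t => ?_)
    show ψ (g * a s * a t) = ψ (g * a (t + s))
    rw [add_comm, hD.mul, mul_assoc]
  · -- Iwahori along the orbit
    intro h h1 h2 h3 x
    refine torAvg_congr865 fun t => ?_
    rw [mul_comm_a865 hD]
    exact hiw h h1 h2 h3 (x * a t)

end Leaf

end Fermat.Agent.LT.T7.H865

end
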