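import Mathlib
import Fermat.Agent.LT.T7.H865.UpBasisU
import Fermat.Agent.LT.T7.H534.DownBasisSpec

/-!
# Row LT, tower T7, node `UpBasisUC`: LEAF T7.L2.2c.B2 `CompleteUC865` (core form of
# `H561.CompleteC561`) FROM THREE CLOSED LEAVES of the cut of helper534 (helper865)

OFF-MAIN.  Nothing assumed, no hole.  Against `T7/H865/UpBasisU.lean`,
`T7/H534/DownBasisSpec.lean` (helper534, sha256 b2d5929f), byte-identical copies.

    completeUC_of865    : SD534.CuspFormC K' → SD534.WSubC K' → SD534.SubSeqC K'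
                            → CompleteUC865 K'
    completeC561_of865  : SD534.CuspFormC K' → SD534.WSubC K' → SD534.SubSeqC K'
                            → H561.CompleteC561 K K'

The three hypotheses are CLOSED (rows 2179 helper76 / 2384 helper128; 2180 helper863; 2185
helper190 / 2324 helper128): they are statements over ONE field and every level.

Proof.  `V` = the cusp functions of level `𝔑_g`, `W` = the invariant cusp functions of the base
level (`W ⊆ V`: `𝔑_g ≤ 𝔑₀`).  `S = V ∩ W^⊥` is a linear subspace of `V` (`CuspFormC`, `WSubC`), so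
it has an orthonormal sequence `p` (zeros allowed) which is complete in `S` (`SubSeqC`).
`e₀ (2k) = v_q` if `k` is the code of the member `q` of the family, `0` otherwise;
`e₀ (2k+1) = p_k`.  Parseval: `f = ψ₁ + f₂`, `ψ₁ ∈ W`, `f₂ ∈ S` (PROJ-up);
`⟨f, v_q⟩ = ⟨ψ₁, v_q⟩`, `⟨f, p_k⟩ = ⟨f₂, p_k⟩`, `‖f‖² = ‖ψ₁‖² + ‖f₂‖²`; the family `v` is complete in
`W`, `p` is complete in `S`; `HasSum.even_add_odd`.
-/

set_option autoImplicit false
set_option linter.unusedSectionVars false
set_option linter.unusedVariables false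

open AutomorphicForm IsDedekindDomain NumberField MeasureTheory
open scoped ComplexConjugate

noncomputable section

namespace Fermat.Agent.LT.T7.H865

open Fermat.Agent.LT.H556 Fermat.Agent.LT.H556.A0 Fermat.Agent.LT Fermat.Agent.LT.T7

attribute [local instance] Fermat.Agent.LT.T5.instMeasurableSpaceG

section Mono

variable {K : Type} [Field K] [NumberField K]

theorem idealClosure_mono865 {𝔑 𝔑₀ : Ideal (𝓞 K)} (h : 𝔑 ≤ 𝔑₀) (v : HeightOneSpectrum (𝓞 K)) :
    idealClosure 𝔑 v ⊆ idealClosure 𝔑₀ v :=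
  closure_mono (Set.image_mono h)

theorem inLevelGroup_mono865 {𝔑 𝔑₀ : Ideal (𝓞 K)} (h : 𝔑 ≤ 𝔑₀) {u : G K}
    (hu : InLevelGroup 𝔑 u) : InLevelGroup 𝔑₀ u :=
  ⟨hu.1, fun v i j => ⟨idealClosure_mono865 h v (hu.2 v i j).1,
    idealClosure_mono865 h v (hu.2 v i j).2⟩⟩

/-- A cusp function of level `𝔑₀` is a cusp function of every level `𝔑 ≤ 𝔑₀`. -/
theorem isCuspFn_mono865 {𝔑 𝔑₀ : Ideal (𝓞 K)} (h : 𝔑 ≤ 𝔑₀) {τ : G K → ℂ} {r : G K}
    {e : G K → ℂ} (he : T5.IsCuspFn 𝔑₀ τ r e) : T5.IsCuspFn 𝔑 τ r e where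
  cont := he.cont
  bdd := he.bdd
  aut :=
    { left_inv := he.aut.left_inv
      level_inv := fun u hu g => he.aut.level_inv u (inLevelGroup_mono865 h hu) g
      arch_compact := he.aut.arch_compact
      ray := he.aut.ray }
  cuspidal := he.cuspidal

end Mono

section Complete

variable {K' : Type} [Field K'] [NumberField K']

/-- **LEAF T7.L2.2c.B2 `CompleteUC865`** from the closed leaves `CuspFormC`, `WSubC`, `SubSeqC`
of the cut of helper534. -/
theorem completeUC_of865 (hF : SD534.CuspFormC K') (hWS : SD534.WSubC K')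
    (hSS : SD534.SubSeqC K') : CompleteUC865 K' := by
  classical
  intro ℓ hℓ hcplx Φ hΦ U hU g hg ι n C v hW
  have h𝔑 : U.𝔑 g ≠ ⊥ := hU.level_ne g hg
  have hfr : T5.IsFrame U.R'.μ U.R'.F := hU.frame'.frame
  have hray : T5.IsRayGen U.R'.r := hU.frame'.ray
  have hform := hF U.R'.μ U.R'.F U.R'.r (U.𝔑 g) h𝔑 hfr hray
  have hsub := hWS (U.𝔑 g) U.R'.r (U.o 0)
  -- abbreviations
  set V : (G K' → ℂ) → Prop := fun f => T5.IsCuspFn (U.𝔑 g) T5.trivType U.R'.r f with hVdef
  set W : (G K' → ℂ) → Prop := fun χ => IsWFn U.𝔑₀ U.R'.r ℓ U.o χ with hWdef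
  set ip : (G K' → ℂ) → (G K' → ℂ) → ℂ := fun f h => T5.innerD U.R'.μ U.R'.F f h with hip
  have hWV : ∀ χ, W χ → V χ := fun χ hχ => isCuspFn_mono865 (hU.level_g g hg) hχ.cusp
  have hV0 : V 0 := hsub.zeroW.cusp
  have hVadd : ∀ f f', V f → V f' → V (f + f') := hsub.addV
  have hVsmul : ∀ (a : ℂ) f, V f → V (a • f) := hsub.smulV
  -- the form
  have ip_add : ∀ f f' h, V f → V f' → V h → ip (f + f') h = ip f h + ip f' h :=
    fun f f' h hf hf' hh => hform.add_left f f' h hf hf' hh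
  have ip_smul : ∀ (a : ℂ) f h, V f → V h → ip (a • f) h = a * ip f h :=
    fun a f h hf hh => hform.smul_left a f h hf hh
  have ip_symm : ∀ f h, V f → V h → ip h f = conj (ip f h) :=
    fun f h hf hh => hform.conj_symm f h hf hh
  have ip_zero_left : ∀ h, V h → ip 0 h = 0 := by
    intro h hh
    have := ip_smul 0 0 h hV0 hh
    rwa [zero_smul, zero_mul] at this
  have ip_zero_right : ∀ f, V f → ip f 0 = 0 := by
    intro f hf
    rw [ip_symm 0 f hV0 hf, ip_zero_left f hf, map_zero]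
  -- the subspace `S = V ∩ W^⊥`
  set S : (G K' → ℂ) → Prop := fun f => V f ∧ ∀ χ, W χ → ip f χ = 0 with hSdef
  have hS0 : S 0 := ⟨hV0, fun χ hχ => ip_zero_left χ (hWV χ hχ)⟩
  have hSadd : ∀ f f', S f → S f' → S (f + f') := by
    intro f f' hf hf'
    refine ⟨hVadd f f' hf.1 hf'.1, fun χ hχ => ?_⟩
    rw [ip_add f f' χ hf.1 hf'.1 (hWV χ hχ), hf.2 χ hχ, hf'.2 χ hχ, add_zero]
  have hSsmul : ∀ (a : ℂ) f, S f → S (a • f) := by
    intro a f hf
    refine ⟨hVsmul a f hf.1, fun χ hχ => ?_⟩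
    rw [ip_smul a f χ hf.1 (hWV χ hχ), hf.2 χ hχ, mul_zero]
  obtain ⟨p, hpS, hporth, hpnorm, hpcomp⟩ := hSS U.R'.μ U.R'.F U.R'.r (U.𝔑 g) h𝔑 hfr hray S
    (fun f hf => hf.1) hS0 hSadd hSsmul
  -- the family `v`
  have hvW : ∀ q : Σ i, Fin (n i), W (v q.1 q.2) := fun q => ((hW.basis q.1).eig q.2).inv
  have hvV : ∀ q : Σ i, Fin (n i), V (v q.1 q.2) := fun q => hWV _ (hvW q)
  have hvorth : ∀ q q' : Σ i, Fin (n i), q ≠ q' → ip (v q.1 q.2) (v q'.1 q'.2) = 0 := by
    rintro ⟨i, a⟩ ⟨i', a'⟩ hne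
    by_cases hii : i = i'
    · subst hii
      have haa : a ≠ a' := fun h => hne (by rw [h])
      have := (hW.basis i).orth a a'
      rwa [if_neg haa] at this
    · exact hW.orth i i' a a' hii
  have hvnorm : ∀ q : Σ i, Fin (n i), ip (v q.1 q.2) (v q.1 q.2) = 1 := by
    rintro ⟨i, a⟩
    have := (hW.basis i).orth a a
    rwa [if_pos rfl] at this
  -- the enumeration
  have hcount : Countable ι := hW.countable
  obtain ⟨enc, henc⟩ := exists_injective_nat (Σ i, Fin (n i))
  set dec : ℕ → Option (Σ i, Fin (n i)) := Function.partialInv enc with hdec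
  have hdec_enc : ∀ q, dec (enc q) = some q := fun q => Function.partialInv_left henc q
  have hdec_inv : ∀ k q, dec k = some q → enc q = k := fun k q h => (henc.isPartialInv q k).1 h
  set ev : ℕ → G K' → ℂ := fun k => (dec k).elim 0 (fun q => v q.1 q.2) with hev
  have hev_enc : ∀ q, ev (enc q) = v q.1 q.2 := by
    intro q
    show (dec (enc q)).elim 0 (fun q => v q.1 q.2) = _
    rw [hdec_enc]
    rfl
  have hev_cases : ∀ k, (ev k = 0 ∧ ∀ q, enc q ≠ k) ∨ ∃ q, enc q = k ∧ ev k = v q.1 q.2 := by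
    intro k
    cases hd : dec k with
    | none =>
      refine Or.inl ⟨?_, fun q hq => ?_⟩
      · show (dec k).elim 0 (fun q => v q.1 q.2) = 0
        rw [hd]
        rfl
      · rw [← hq, hdec_enc] at hd
        cases hd
    | some q =>
      refine Or.inr ⟨q, hdec_inv k q hd, ?_⟩
      show (dec k).elim 0 (fun q => v q.1 q.2) = _
      rw [hd]
      rfl
  have hevV : ∀ k, V (ev k) := by
    intro k
    rcases hev_cases k with ⟨h0, -⟩ | ⟨q, -, hq⟩
    · rw [h0]
      exact hV0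
    · rw [hq]
      exact hvV q
  -- the sequence
  set e₀ : ℕ → G K' → ℂ := fun j => if j % 2 = 0 then ev (j / 2) else p (j / 2) with he₀
  have he_even : ∀ k, e₀ (2 * k) = ev k := by
    intro k
    show (if (2 * k) % 2 = 0 then ev ((2 * k) / 2) else p ((2 * k) / 2)) = ev k
    rw [if_pos (Nat.mul_mod_right 2 k), Nat.mul_div_cancel_left k (by norm_num)]
  have he_odd : ∀ k, e₀ (2 * k + 1) = p k := by
    intro k
    show (if (2 * k + 1) % 2 = 0 then ev ((2 * k + 1) / 2) else p ((2 * k + 1) / 2)) = p k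
    have h1 : (2 * k + 1) % 2 ≠ 0 := by omega
    have h2 : (2 * k + 1) / 2 = k := by omega
    rw [if_neg h1, h2]
  have hpV : ∀ k, V (p k) := fun k => (hpS k).1
  have hp_ev : ∀ a b, ip (p a) (ev b) = 0 := by
    intro a b
    rcases hev_cases b with ⟨h0, -⟩ | ⟨q, -, hq⟩
    · rw [h0]
      exact ip_zero_right _ (hpV a)
    · rw [hq]
      exact (hpS a).2 _ (hvW q)
  have hev_p : ∀ a b, ip (ev a) (p b) = 0 := by
    intro a b
    rw [ip_symm (p b) (ev a) (hpV b) (hevV a), hp_ev, map_zero]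
  have hev_ev : ∀ a b, a ≠ b → ip (ev a) (ev b) = 0 := by
    intro a b hab
    rcases hev_cases a with ⟨h0, -⟩ | ⟨q, hqa, hq⟩
    · rw [h0]
      exact ip_zero_left _ (hevV b)
    · rcases hev_cases b with ⟨h0', -⟩ | ⟨q', hqb, hq'⟩
      · rw [h0']
        exact ip_zero_right _ (hevV a)
      · rw [hq, hq']
        refine hvorth q q' fun h => hab ?_
        rw [← hqa, ← hqb, h]
  refine ⟨e₀, fun i a => 2 * enc ⟨i, a⟩, ⟨?_, ?_, ?_, ?_⟩, ?_, ?_, ?_⟩
  · -- cusp
    intro j
    obtain ⟨k, rfl | rfl⟩ := Nat.even_or_odd' j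
    · rw [he_even]
      exact hevV k
    · rw [he_odd]
      exact hpV k
  · -- orth
    intro i j hij
    obtain ⟨a, rfl | rfl⟩ := Nat.even_or_odd' i <;> obtain ⟨b, rfl | rfl⟩ := Nat.even_or_odd' j
    · rw [he_even, he_even]
      exact hev_ev a b fun h => hij (by rw [h])
    · rw [he_even, he_odd]
      exact hev_p a b
    · rw [he_odd, he_even]
      exact hp_ev a b
    · rw [he_odd, he_odd]
      exact hporth a b fun h => hij (by rw [h])
  · -- norm
    intro j
    obtain ⟨k, rfl | rfl⟩ := Nat.even_or_odd' j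
    · rw [he_even]
      rcases hev_cases k with ⟨h0, -⟩ | ⟨q, -, hq⟩
      · right
        intro x
        rw [h0]
        rfl
      · left
        rw [hq]
        exact hvnorm q
    · rw [he_odd]
      rcases hpnorm k with h1 | h0
      · exact Or.inl h1
      · right
        intro x
        rw [h0]
        rfl
  · -- complete
    intro f hf
    obtain ⟨ψ₁, hψ₁, hψorth⟩ := hU.proj_up g hg f hf
    set f₂ : G K' → ℂ := fun x => f x - ψ₁ x with hf₂
    have hψ₁V : V ψ₁ := hWV ψ₁ hψ₁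
    have hf₂eq : f₂ = f + (-1 : ℂ) • ψ₁ := by
      funext x
      show f x - ψ₁ x = f x + (-1 : ℂ) * ψ₁ x
      ring
    have hf₂V : V f₂ := by
      rw [hf₂eq]
      exact hVadd _ _ hf (hVsmul _ _ hψ₁V)
    have hf₂S : S f₂ := ⟨hf₂V, fun χ hχ => hψorth χ hχ⟩
    have hfeq : f = ψ₁ + f₂ := by
      funext x
      show f x = ψ₁ x + (f x - ψ₁ x)
      ring
    have hfh : ∀ h, V h → ip f h = ip ψ₁ h + ip f₂ h := by
      intro h hh
      have := ip_add ψ₁ f₂ h hψ₁V hf₂V hh
      rw [← hfeq] at this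
      exact this
    have h12 : ip f₂ ψ₁ = 0 := hf₂S.2 ψ₁ hψ₁
    have h21 : ip ψ₁ f₂ = 0 := by rw [ip_symm f₂ ψ₁ hf₂V hψ₁V, h12, map_zero]
    -- the norm
    have hnorm : (ip f f).re = (ip ψ₁ ψ₁).re + (ip f₂ f₂).re := by
      have e1 : ip f ψ₁ = ip ψ₁ ψ₁ := by rw [hfh ψ₁ hψ₁V, h12, add_zero]
      have e2 : ip f f₂ = ip f₂ f₂ := by rw [hfh f₂ hf₂V, h21, zero_add]
      have e3 : ip ψ₁ f = conj (ip ψ₁ ψ₁) := by rw [ip_symm f ψ₁ hf hψ₁V, e1]
      have e4 : ip f₂ f = conj (ip f₂ f₂) := by rw [ip_symm f f₂ hf hf₂V, e2]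
      rw [hfh f hf, e3, e4, Complex.add_re, Complex.conj_re, Complex.conj_re]
    -- the even part
    have heven : HasSum (fun k => ‖ip f (e₀ (2 * k))‖ ^ 2) (ip ψ₁ ψ₁).re := by
      have h1 := hW.complete ψ₁ hψ₁
      have h2 : (fun k => ‖ip f (e₀ (2 * k))‖ ^ 2) = fun k => ‖ip f (ev k)‖ ^ 2 := by
        funext k
        rw [he_even]
      rw [h2]
      refine (Function.Injective.hasSum_iff henc ?_).1 ?_
      · intro k hk
        rcases hev_cases k with ⟨h0, -⟩ | ⟨q, hq, -⟩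
        · show ‖ip f (ev k)‖ ^ 2 = 0
          rw [h0, ip_zero_right f hf, norm_zero]
          norm_num
        · exact absurd ⟨q, hq⟩ hk
      · have h3 : ((fun k => ‖ip f (ev k)‖ ^ 2) ∘ enc)
            = fun q : Σ i, Fin (n i) => ‖ip ψ₁ (v q.1 q.2)‖ ^ 2 := by
          funext q
          show ‖ip f (ev (enc q))‖ ^ 2 = _
          rw [hev_enc, hfh _ (hvV q), hf₂S.2 _ (hvW q), add_zero]
        rw [h3]
        exact h1
    -- the odd part
    have hodd : HasSum (fun k => ‖ip f (e₀ (2 * k + 1))‖ ^ 2) (ip f₂ f₂).re := by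
      have h1 := hpcomp f₂ hf₂S
      have h2 : (fun k => ‖ip f (e₀ (2 * k + 1))‖ ^ 2)
          = fun k => ‖T5.innerD U.R'.μ U.R'.F f₂ (p k)‖ ^ 2 := by
        funext k
        rw [he_odd, hfh _ (hpV k)]
        have : ip ψ₁ (p k) = 0 := by
          rw [ip_symm (p k) ψ₁ (hpV k) hψ₁V, (hpS k).2 ψ₁ hψ₁, map_zero]
        rw [this, zero_add]
      rw [h2]
      exact h1
    have := HasSum.even_add_odd (f := fun j => ‖ip f (e₀ j)‖ ^ 2) heven hodd
    rw [← hnorm] at this
    exact this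
  · -- injectivity of the indices
    intro i a i' a' h
    have h' : 2 * enc ⟨i, a⟩ = 2 * enc ⟨i', a'⟩ := h
    have h2 : enc ⟨i, a⟩ = enc ⟨i', a'⟩ := by omega
    exact henc h2
  · -- the members of the family
    intro i a
    show e₀ (2 * enc ⟨i, a⟩) = v i a
    rw [he_even, hev_enc]
  · -- outside the family
    intro j hj χ hχ
    obtain ⟨k, rfl | rfl⟩ := Nat.even_or_odd' j
    · rw [he_even]
      rcases hev_cases k with ⟨h0, -⟩ | ⟨q, hq, -⟩
      · rw [h0]
        exact ip_zero_left χ (hWV χ hχ)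
      · refine absurd ?_ (hj q.1 q.2)
        show 2 * enc ⟨q.1, q.2⟩ = 2 * k
        rw [← hq]
    · rw [he_odd]
      exact (hpS k).2 χ hχ

end Complete

section L2

variable {K K' : Type} [Field K] [NumberField K] [Field K'] [NumberField K'] [Algebra K K']

/-- **LEAF T7.L2.2.B2 `H561.CompleteC561`** (row 2274) from the same closed leaves. -/
theorem completeC561_of865 (hF : SD534.CuspFormC K') (hWS : SD534.WSubC K')
    (hSS : SD534.SubSeqC K') : H561.CompleteC561 K K' :=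
  completeC561_of_U865 (completeUC_of865 hF hWS hSS)

end L2

end Fermat.Agent.LT.T7.H865

end
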